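import Fermat.Agent.S23.Defs
import Fermat.Prelude.Def_ModularForm_HeckeOperator
import Fermat.Prelude.Thm_CongruenceSubgroup_one_mem_strictPeriods_Gamma0

set_option autoImplicit false

/-!
# S23, piece (H): the primitive element `h = N³ E₄(N τ)`

`h` is a modular form of weight 4 on `Γ₀(N)` with integral `q`-expansion whose stabiliser in
`SL₂(ℤ)` (for the weight 4 slash action) is exactly `Γ₀(N)`; the latter is seen by comparing
values at `i∞`.
-/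

namespace Fermat.Agent.S23.PrimEl

open UpperHalfPlane ModularForm
open scoped MatrixGroups Manifold

theorem mapGL_apply' (g : SL(2, ℤ)) (i j : Fin 2) :
    ((Matrix.SpecialLinearGroup.mapGL ℝ g : GL (Fin 2) ℝ) :
      Matrix (Fin 2) (Fin 2) ℝ) i j = ((g i j : ℤ) : ℝ) := by
  simp [Matrix.SpecialLinearGroup.mapGL_coe_matrix]

theorem exists_SL (M : Matrix (Fin 2) (Fin 2) ℤ) (hM : M.det = 1) :
    ∃ g : SL(2, ℤ), (g : Matrix (Fin 2) (Fin 2) ℤ) = M := ⟨⟨M, hM⟩, rfl⟩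

theorem SL_det_eq (γ : SL(2, ℤ)) : γ 0 0 * γ 1 1 - γ 0 1 * γ 1 0 = 1 := by
  have := γ.det_coe
  rwa [Matrix.det_fin_two] at this

/-- For `γ = (a b; c d) ∈ Γ₀(N)`, the matrix `(a, N b; c / N, d)`. -/
theorem exists_conj_of_mem_Gamma0 (N : ℕ) [NeZero N] (γ : SL(2, ℤ))
    (hγ : γ ∈ CongruenceSubgroup.Gamma0 N) :
    ∃ γ' : SL(2, ℤ), heckeDiagMatrix N * Matrix.SpecialLinearGroup.mapGL ℝ γ =
      Matrix.SpecialLinearGroup.mapGL ℝ γ' * heckeDiagMatrix N := by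
  have hN : N ≠ 0 := NeZero.ne N
  rw [CongruenceSubgroup.Gamma0_mem] at hγ
  obtain ⟨c', hc'⟩ : (N : ℤ) ∣ γ 1 0 := (ZMod.intCast_zmod_eq_zero_iff_dvd _ _).mp hγ
  have hdet := SL_det_eq γ
  obtain ⟨γ', hγ'⟩ := exists_SL !![γ 0 0, N * γ 0 1; c', γ 1 1] (by
    rw [Matrix.det_fin_two_of]
    rw [hc'] at hdet
    linarith)
  refine ⟨γ', ?_⟩
  apply Units.ext
  rw [Units.val_mul, Units.val_mul, val_heckeDiagMatrix hN]
  ext i j
  fin_cases i <;> fin_cases j <;>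
    simp [Matrix.mul_apply, Fin.sum_univ_two, hc', mul_comm, hγ']

open ConjAct Pointwise in
theorem G0_le_conj (N : ℕ) [NeZero N] :
    G0 N ≤ toConjAct (heckeDiagMatrix N)⁻¹ • 𝒮ℒ := by
  rintro _ ⟨γ, hγ, rfl⟩
  obtain ⟨γ', hγ'⟩ := exists_conj_of_mem_Gamma0 N γ hγ
  rw [Subgroup.mem_pointwise_smul_iff_inv_smul_mem, ← map_inv, inv_inv, ConjAct.toConjAct_smul,
    hγ', mul_inv_cancel_right]
  exact ⟨γ', rfl⟩

/-- The form `N³ E₄(N τ)` on `Γ₀(N)`. -/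
noncomputable def hForm (N : ℕ) [NeZero N] : ModularForm (G0 N) 4 where
  toFun := ⇑E₄ ∣[(4 : ℤ)] heckeDiagMatrix N
  slash_action_eq' γ hγ := (translate E₄ (heckeDiagMatrix N)).slash_action_eq' γ (G0_le_conj N hγ)
  holo' := (translate E₄ (heckeDiagMatrix N)).holo'
  bdd_at_cusps' hc := (translate E₄ (heckeDiagMatrix N)).bdd_at_cusps' (hc.mono (G0_le_conj N))

theorem coe_hForm (N : ℕ) [NeZero N] : ⇑(hForm N) = ⇑E₄ ∣[(4 : ℤ)] heckeDiagMatrix N := rfl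

theorem hForm_apply (N : ℕ) [NeZero N] (τ : ℍ) :
    hForm N τ = (N : ℂ) ^ 3 * E₄ (heckeDiagMatrix N • τ) := by
  rw [coe_hForm, slash_heckeDiagMatrix_apply 4 (NeZero.ne N)]
  norm_num

local notation "𝕢" => Function.Periodic.qParam

theorem E4_coeff_int (m : ℕ) : ∃ z : ℤ, (qExpansion 1 E₄).coeff m = (z : ℂ) := by
  rw [EisensteinSeries.E_qExpansion_coeff _ ⟨2, rfl⟩, show bernoulli 4 = -1 / 30 by decide +kernel]
  split_ifs
  · exact ⟨1, by simp⟩
  · exact ⟨240 * (ArithmeticFunction.sigma 3 m : ℤ), by push_cast; norm_num⟩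

theorem qParam_heckeDiag (N : ℕ) [NeZero N] (τ : ℍ) :
    𝕢 1 ((heckeDiagMatrix N • τ : ℍ) : ℂ) = 𝕢 1 (τ : ℂ) ^ N := by
  rw [coe_heckeDiagMatrix_smul (NeZero.ne N), Function.Periodic.qParam, Function.Periodic.qParam,
    ← Complex.exp_nat_mul]
  congr 1
  ring

/-- the `q`-coefficients of `N³ E₄(N τ)` -/
noncomputable def hCoeff (N : ℕ) (n : ℕ) : ℂ :=
  if N ∣ n then (N : ℂ) ^ 3 * (qExpansion 1 E₄).coeff (n / N) else 0

theorem hasSum_hForm (N : ℕ) [NeZero N] (τ : ℍ) :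
    HasSum (fun n ↦ hCoeff N n • 𝕢 1 (τ : ℂ) ^ n) (hForm N τ) := by
  have hN : 0 < N := Nat.pos_of_ne_zero (NeZero.ne N)
  have h1 := (ModularForm.hasSum_qExpansion E₄ one_pos one_mem_strictPeriods_SL
    (heckeDiagMatrix N • τ)).mul_left ((N : ℂ) ^ 3)
  rw [← hForm_apply, qParam_heckeDiag] at h1
  have hinj : Function.Injective (fun m : ℕ ↦ N * m) := fun a b h ↦ Nat.eq_of_mul_eq_mul_left hN h
  rw [← hinj.hasSum_iff]
  · have hfun : ((fun n ↦ hCoeff N n • 𝕢 1 (τ : ℂ) ^ n) ∘ fun m : ℕ ↦ N * m) =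
        fun i ↦ (N : ℂ) ^ 3 * ((qExpansion 1 E₄).coeff i * (𝕢 1 (τ : ℂ) ^ N) ^ i) := by
      funext m
      simp only [Function.comp, hCoeff, dvd_mul_right, if_true, Nat.mul_div_cancel_left _ hN,
        smul_eq_mul, pow_mul, mul_assoc]
    rw [hfun]
    exact h1
  · intro n hn
    have : ¬ N ∣ n := fun ⟨m, hm⟩ ↦ hn ⟨m, hm.symm⟩
    simp [hCoeff, this]

theorem qe_hForm_coeff (N : ℕ) [NeZero N] (n : ℕ) : (qe (hForm N)).coeff n = hCoeff N n :=
  (ModularFormClass.qExpansion_coeff_unique one_pos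
    (CongruenceSubgroup.one_mem_strictPeriods_Gamma0 N) (hasSum_hForm N) n).symm

theorem BD_qe_hForm (N : ℕ) [NeZero N] : BD (qe (hForm N)) := by
  refine ⟨1, one_ne_zero, fun n ↦ ?_⟩
  rw [qe_hForm_coeff, hCoeff]
  split_ifs
  · obtain ⟨z, hz⟩ := E4_coeff_int (n / N)
    exact ⟨(N : ℤ) ^ 3 * z, by rw [hz]; push_cast; ring⟩
  · exact ⟨0, by simp⟩

open Filter Topology

theorem tendsto_E4 : Tendsto (⇑E₄) atImInfty (𝓝 1) := by
  have h0 : cuspFunction 1 (⇑E₄) 0 = 1 := by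
    have := EisensteinSeries.E_qExpansion_coeff_zero (k := 4) (by norm_num) ⟨2, rfl⟩
    rw [qExpansion_coeff] at this
    simpa using this
  have h1 := (ModularFormClass.analyticAt_cuspFunction_zero E₄ one_pos
    one_mem_strictPeriods_SL).continuousAt.tendsto.comp (qParam_tendsto_atImInfty one_pos)
  rw [h0] at h1
  exact h1.congr fun τ ↦
    SlashInvariantFormClass.eq_cuspFunction E₄ τ one_mem_strictPeriods_SL one_ne_zero

theorem slash_upperTriangular_apply (f : ℍ → ℂ) (k : ℤ) (a b d : ℝ) (ha : 0 < a) (hd : 0 < d)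
    (τ : ℍ) :
    (f ∣[k] upperTriangularGL a b d (mul_pos ha hd).ne') τ =
      f (upperTriangularGL a b d (mul_pos ha hd).ne' • τ) *
        ((a * d : ℝ) : ℂ) ^ (k - 1) * (d : ℂ) ^ (-k) := by
  have hdet : ((upperTriangularGL a b d (mul_pos ha hd).ne').det : ℝ) = a * d := by
    rw [Matrix.GeneralLinearGroup.val_det_apply, val_upperTriangularGL, Matrix.det_fin_two_of]
    ring
  have hσ : UpperHalfPlane.σ (upperTriangularGL a b d (mul_pos ha hd).ne') = .refl ℝ ℂ := by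
    rw [UpperHalfPlane.σ, if_pos (by rw [hdet]; exact mul_pos ha hd)]
  have hden : UpperHalfPlane.denom (upperTriangularGL a b d (mul_pos ha hd).ne') τ = d := by
    simp [UpperHalfPlane.denom, val_upperTriangularGL]
  rw [ModularForm.slash_apply, hσ, hdet, hden, abs_of_pos (mul_pos ha hd)]
  rfl

theorem tendsto_slash_upperTriangular (f : ℍ → ℂ) (L : ℂ) (hf : Tendsto f atImInfty (𝓝 L))
    (k : ℤ) (a b d : ℝ) (ha : 0 < a) (hd : 0 < d) :
    Tendsto (f ∣[k] upperTriangularGL a b d (mul_pos ha hd).ne') atImInfty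
      (𝓝 (L * ((a * d : ℝ) : ℂ) ^ (k - 1) * (d : ℂ) ^ (-k))) := by
  have h1 : Tendsto (fun τ : ℍ ↦ upperTriangularGL a b d (mul_pos ha hd).ne' • τ)
      atImInfty atImInfty :=
    tendsto_smul_atImInfty (by simp [val_upperTriangularGL])
  have h2 := ((hf.comp h1).mul_const (((a * d : ℝ) : ℂ) ^ (k - 1))).mul_const ((d : ℂ) ^ (-k))
  exact h2.congr fun τ ↦ (slash_upperTriangular_apply f k a b d ha hd τ).symm

theorem hermite_int (N a b c d : ℤ) (hN : 0 < N) (hdet : a * d - b * c = 1) :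
    ∃ x y C' A' g e : ℤ, 0 < g ∧ 0 < e ∧ g * e = N ∧ c = g * C' ∧ x * A' + y * C' = 1 ∧
      x * (N * a) + y * c = g ∧ -C' * (N * a) + A' * c = 0 ∧ -C' * (N * b) + A' * d = e := by
  obtain ⟨g, hgdef⟩ : ∃ g : ℤ, g = (Int.gcd (N * a) c : ℤ) := ⟨_, rfl⟩
  have hbez : g = (N * a) * Int.gcdA (N * a) c + c * Int.gcdB (N * a) c := by
    rw [hgdef]; exact Int.gcd_eq_gcd_ab _ _
  obtain ⟨A', hA'⟩ : g ∣ N * a := by rw [hgdef]; exact Int.gcd_dvd_left _ _
  obtain ⟨C', hC'⟩ : g ∣ c := by rw [hgdef]; exact Int.gcd_dvd_right _ _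
  have hg0 : g ≠ 0 := by
    intro h0
    rw [h0, zero_mul] at hA' hC'
    have h00 : a = 0 := by
      rcases mul_eq_zero.mp hA' with h | h
      · exact absurd h hN.ne'
      · exact h
    rw [h00, hC'] at hdet
    simp at hdet
  have hgpos : 0 < g := lt_of_le_of_ne (by rw [hgdef]; positivity) hg0.symm
  obtain ⟨x, hx⟩ : ∃ x, x = Int.gcdA (N * a) c := ⟨_, rfl⟩
  obtain ⟨y, hy⟩ : ∃ y, y = Int.gcdB (N * a) c := ⟨_, rfl⟩
  rw [← hx, ← hy] at hbez
  have hδdet : x * A' + y * C' = 1 := by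
    apply mul_left_cancel₀ hg0
    rw [mul_one]
    conv_rhs => rw [hbez, hA']
    rw [hC']
    ring
  have hge : g * (-C' * (N * b) + A' * d) = N := by
    have : g * (-C' * (N * b) + A' * d) = -(g * C') * (N * b) + (g * A') * d := by ring
    rw [this, ← hA', ← hC']
    linear_combination N * hdet
  have hepos : 0 < -C' * (N * b) + A' * d := by
    by_contra hcon
    have : g * (-C' * (N * b) + A' * d) ≤ 0 :=
      mul_nonpos_of_nonneg_of_nonpos hgpos.le (not_lt.mp hcon)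
    omega
  refine ⟨x, y, C', A', g, _, hgpos, hepos, hge, hC', hδdet, ?_, ?_, rfl⟩
  · rw [hbez]; ring
  · rw [hA']
    conv_lhs => rw [hC']
    ring

theorem val_mapGL (g : SL(2, ℤ)) :
    ((Matrix.SpecialLinearGroup.mapGL ℝ g : GL (Fin 2) ℝ) : Matrix (Fin 2) (Fin 2) ℝ) =
      !![((g 0 0 : ℤ) : ℝ), ((g 0 1 : ℤ) : ℝ); ((g 1 0 : ℤ) : ℝ), ((g 1 1 : ℤ) : ℝ)] := by
  ext i j
  fin_cases i <;> fin_cases j <;> simp [mapGL_apply']

/-- Hermite normal form of `diag(N,1) γ`. -/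
theorem exists_upperTriangular (N : ℕ) [NeZero N] (γ : SL(2, ℤ)) :
    ∃ (δ : SL(2, ℤ)) (g e b' : ℤ) (hg : 0 < (g : ℝ)) (he : 0 < (e : ℝ)),
      g * e = N ∧ g ∣ γ 1 0 ∧
      Matrix.SpecialLinearGroup.mapGL ℝ δ *
          (heckeDiagMatrix N * Matrix.SpecialLinearGroup.mapGL ℝ γ) =
        upperTriangularGL g b' e (mul_pos hg he).ne' := by
  have hN : N ≠ 0 := NeZero.ne N
  have hNpos : (0 : ℤ) < N := by exact_mod_cast Nat.pos_of_ne_zero hN
  obtain ⟨x, y, C', A', g, e, hgpos, hepos, hge, hC', hδdet, e00, e10, e11⟩ :=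
    hermite_int N (γ 0 0) (γ 0 1) (γ 1 0) (γ 1 1) hNpos (SL_det_eq γ)
  obtain ⟨δ, hδ⟩ := exists_SL !![x, y; -C', A'] (by
    rw [Matrix.det_fin_two_of]; linarith)
  refine ⟨δ, g, e, x * (N * γ 0 1) + y * γ 1 1, by exact_mod_cast hgpos, by exact_mod_cast hepos,
    hge, ⟨C', hC'⟩, ?_⟩
  apply Units.ext
  rw [Units.val_mul, Units.val_mul, val_heckeDiagMatrix hN, val_upperTriangularGL, val_mapGL,
    val_mapGL, hδ, Matrix.mul_fin_two, Matrix.mul_fin_two]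
  have e00' := congrArg (Int.cast : ℤ → ℝ) e00
  have e10' := congrArg (Int.cast : ℤ → ℝ) e10
  have e11' := congrArg (Int.cast : ℤ → ℝ) e11
  push_cast at e00' e10' e11'
  ext i j
  fin_cases i <;> fin_cases j
  · simp
    linarith
  · simp
  · simp
    linarith
  · simp
    linarith

theorem heckeDiagMatrix_eq (N : ℕ) (hN : 0 < (N : ℝ)) :
    heckeDiagMatrix N = upperTriangularGL N 0 1 (mul_pos hN one_pos).ne' := by
  have : N ≠ 0 := by rintro rfl; simp at hN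
  rw [heckeDiagMatrix, dif_neg this]

theorem tendsto_hForm (N : ℕ) [NeZero N] : Tendsto (⇑(hForm N)) atImInfty (𝓝 ((N : ℂ) ^ 3)) := by
  have hN : 0 < (N : ℝ) := by exact_mod_cast Nat.pos_of_ne_zero (NeZero.ne N)
  have h := tendsto_slash_upperTriangular (⇑E₄) 1 tendsto_E4 4 N 0 1 hN one_pos
  rw [← heckeDiagMatrix_eq N hN, ← coe_hForm] at h
  convert h using 2
  norm_num

theorem mem_Gamma0_of_slash_eq (N : ℕ) [NeZero N] (γ : SL(2, ℤ))
    (h : ⇑(hForm N) ∣[(4 : ℤ)] γ = ⇑(hForm N)) : γ ∈ CongruenceSubgroup.Gamma0 N := by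
  have hN : (N : ℂ) ≠ 0 := by exact_mod_cast NeZero.ne N
  obtain ⟨δ, g, e, b', hg, he, hge, hgc, hmat⟩ := exists_upperTriangular N γ
  have h1 : ⇑(hForm N) ∣[(4 : ℤ)] γ = ⇑E₄ ∣[(4 : ℤ)] upperTriangularGL g b' e (mul_pos hg he).ne' := by
    have hδ : ⇑E₄ ∣[(4 : ℤ)] (Matrix.SpecialLinearGroup.mapGL ℝ δ) = ⇑E₄ :=
      SlashInvariantFormClass.slash_action_eq E₄ _ (MonoidHom.mem_range.mpr ⟨δ, rfl⟩)
    rw [← hmat, SlashAction.slash_mul, SlashAction.slash_mul, hδ, coe_hForm]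
    rfl
  have h2 := tendsto_slash_upperTriangular (⇑E₄) 1 tendsto_E4 4 g b' e hg he
  rw [← h1, h] at h2
  have h3 := tendsto_nhds_unique h2 (tendsto_hForm N)
  have hgeC : ((g * e : ℝ) : ℂ) = (N : ℂ) := by
    have := congrArg (Int.cast : ℤ → ℂ) hge
    push_cast at this ⊢
    exact this
  have heC : (e : ℂ) ≠ 0 := by
    have : (e : ℝ) ≠ 0 := he.ne'
    exact_mod_cast this
  rw [hgeC] at h3
  have h4 : (e : ℂ) ^ 4 = 1 := by
    have h5 : (N : ℂ) ^ 3 * ((e : ℝ) : ℂ) ^ (-4 : ℤ) = (N : ℂ) ^ 3 := by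
      have : (4 : ℤ) - 1 = 3 := by norm_num
      rw [this] at h3
      simpa using h3
    have h6 : ((e : ℝ) : ℂ) ^ (-4 : ℤ) = 1 := by
      have := mul_left_cancel₀ (pow_ne_zero 3 hN) (h5.trans (mul_one _).symm)
      exact this
    rw [zpow_neg, inv_eq_one] at h6
    exact_mod_cast h6
  have h5 : e ^ 4 = 1 := by exact_mod_cast h4
  have he1 : e = 1 := by
    have hepos : 0 < e := by exact_mod_cast he
    nlinarith [sq_nonneg (e ^ 2 - 1), sq_nonneg (e - 1), sq_nonneg (e + 1), sq_nonneg e]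
  rw [he1, mul_one] at hge
  rw [CongruenceSubgroup.Gamma0_mem, ZMod.intCast_zmod_eq_zero_iff_dvd, ← hge]
  exact hgc

end Fermat.Agent.S23.PrimEl

namespace Fermat.Agent.S23

open UpperHalfPlane ModularForm
open scoped MatrixGroups Manifold

/-- (H) the primitive element -/
theorem exists_h (N : ℕ) [NeZero N] :
    ∃ h : ModularForm (G0 N) 4, BD (qe h) ∧
      ∀ γ : SL(2, ℤ), (⇑h ∣[(4 : ℤ)] γ = ⇑h) → γ ∈ CongruenceSubgroup.Gamma0 N :=
  ⟨PrimEl.hForm N, PrimEl.BD_qe_hForm N, PrimEl.mem_Gamma0_of_slash_eq N⟩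

end Fermat.Agent.S23
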