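import Fermat.Agent.S23.Main
import Fermat.Agent.S23.PrimitiveElement

/-!
# S23: `S_k(Γ₀(N))` has an integral structure, for every weight `k`
-/

set_option autoImplicit false

namespace Fermat.Agent.S23

/-- `S_k(Γ₀(N))` is spanned over `ℂ` by the forms with integral `q`-expansion. -/
theorem hasIntegralStructure (N : ℕ) [NeZero N] (k : ℤ) : CuspForm.HasIntegralStructure N k := by
  obtain ⟨h, hBD, hstab⟩ := exists_h N
  exact hasIntegralStructure_of_primitive N h hBD hstab k

end Fermat.Agent.S23
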