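import Mathlib
import Fermat.Prelude.Def_CuspForm_HeckeAlgebra
import Fermat.Prelude.Def_CuspForm_IntegralStructure
import Fermat.Prelude.Thm_CuspForm_intLattice_fg
import Fermat.Prelude.Thm_CuspForm_mem_intLattice_of_mem_heckeAlgebra

/-!
# Finiteness of the Hecke algebra from the integral structure

If `S_k(Γ₀(N))` is spanned by forms with integral `q`-expansion then the Hecke algebra is a
finitely generated `ℤ`-module.
-/

set_option autoImplicit false

namespace Fermat.Agent.S23

open CongruenceSubgroup

/-- weight `≤ 0` cusp forms vanish -/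
theorem cuspForm_eq_zero_of_nonpos (N : ℕ) [NeZero N] {k : ℤ} (hk : k ≤ 0)
    (f : CuspForm (Gamma0 N) k) : f = 0 := by
  rcases hk.lt_or_eq with hk | rfl
  · apply CuspForm.toModularFormₗ_injective
    rw [map_zero]
    exact ModularForm.isZero_of_neg_weight hk _
  · obtain ⟨c, hc⟩ := ModularForm.eq_const_of_weight_zero (CuspForm.toModularFormₗ f)
    have hc' : (f : UpperHalfPlane → ℂ) = Function.const UpperHalfPlane c := by
      rw [← hc]
      rfl
    have h0 : UpperHalfPlane.IsZeroAtImInfty (f : UpperHalfPlane → ℂ) :=
      CuspFormClass.zero_at_infty f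
    rw [hc'] at h0
    have : c = 0 := by
      have h1 : Filter.Tendsto (Function.const UpperHalfPlane c) UpperHalfPlane.atImInfty
          (nhds c) := tendsto_const_nhds
      exact tendsto_nhds_unique h1 h0
    ext τ
    rw [hc', this]
    rfl

theorem heckeAlgebra_finite_of_pos (N : ℕ) [NeZero N] {k : ℤ} (hk : 1 ≤ k) (S : Set ℕ)
    (h : CuspForm.HasIntegralStructure N k) :
    Module.Finite ℤ (CuspForm.heckeAlgebra N k S) := by
  classical
  let L := CuspForm.intLattice N k
  have hLfg : Module.Finite ℤ L := Module.Finite.iff_fg.2 (CuspForm.intLattice_fg N k)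
  have hVtf : IsAddTorsionFree (CuspForm (Gamma0 N) k) :=
    { nsmul_right_injective := fun n hn a b hab => by
        have h : (n : ℂ) • a = (n : ℂ) • b := by
          simpa only [Nat.cast_smul_eq_nsmul] using hab
        exact smul_right_injective _ (Nat.cast_ne_zero.mpr hn) h }
  have hLtf' : IsAddTorsionFree L :=
    { nsmul_right_injective := fun n hn a b hab => by
        apply Subtype.ext
        exact hVtf.nsmul_right_injective hn (by simpa using congrArg Subtype.val hab) }
  have hLtf : Module.IsTorsionFree ℤ L := inferInstance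
  have hLfree : Module.Free ℤ L := Module.free_of_finite_type_torsion_free'
  have hEnd : Module.Finite ℤ (L →ₗ[ℤ] L) := Module.Finite.linearMap ℤ ℤ L L
  -- restriction to the lattice
  let Φ : CuspForm.heckeAlgebra N k S →ₗ[ℤ] (L →ₗ[ℤ] L) :=
    { toFun := fun t =>
        { toFun := fun f => ⟨(t : Module.End ℂ (CuspForm (Gamma0 N) k)) f,
            CuspForm.mem_intLattice_of_mem_heckeAlgebra hk t.2 f.2⟩
          map_add' := fun f g => Subtype.ext (by simp)
          map_smul' := fun m f => Subtype.ext (by simp) }
      map_add' := fun s t => by ext f; simp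
      map_smul' := fun m t => by ext f; simp }
  have hΦ : Function.Injective Φ := by
    rw [← LinearMap.ker_eq_bot, LinearMap.ker_eq_bot']
    intro t ht
    apply Subtype.ext
    apply LinearMap.ext_on (s := (L : Set (CuspForm (Gamma0 N) k))) h
    intro f hf
    have := congrArg (fun φ : L →ₗ[ℤ] L => ((φ ⟨f, hf⟩ : L) : CuspForm (Gamma0 N) k)) ht
    simpa [Φ] using this
  exact Module.Finite.of_injective Φ hΦ

/-- If `S_k(Γ₀(N))` has an integral structure then the Hecke algebra is finite over `ℤ`. -/
theorem heckeAlgebra_finite (N : ℕ) [NeZero N] (k : ℤ) (S : Set ℕ)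
    (h : CuspForm.HasIntegralStructure N k) :
    Module.Finite ℤ (CuspForm.heckeAlgebra N k S) := by
  rcases le_or_gt 1 k with hk | hk
  · exact heckeAlgebra_finite_of_pos N hk S h
  · have hsub : Subsingleton (CuspForm (Gamma0 N) k) :=
      ⟨fun f g => by
        rw [cuspForm_eq_zero_of_nonpos N (by omega) f, cuspForm_eq_zero_of_nonpos N (by omega) g]⟩
    have : Subsingleton (Module.End ℂ (CuspForm (Gamma0 N) k)) :=
      ⟨fun s t => LinearMap.ext fun f => Subsingleton.elim _ _⟩
    have : Subsingleton (CuspForm.heckeAlgebra N k S) :=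
      ⟨fun s t => Subtype.ext (Subsingleton.elim _ _)⟩
    infer_instance

end Fermat.Agent.S23
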