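import Fermat.Agent.S23.Defs

/-!
# S23: `q`-expansions of "nice" functions

A function on the upper half plane is *nice* if it is `1`-periodic, holomorphic and bounded at
`i∞`.  On nice functions `qe` is additive, multiplicative and injective.
-/

set_option autoImplicit false

namespace Fermat.Agent.S23

open UpperHalfPlane ModularForm Filter Topology
open scoped MatrixGroups Manifold

/-- `1`-periodic, holomorphic, bounded at `i∞`. -/
structure Nice (F : ℍ → ℂ) : Prop where
  per : Function.Periodic (F ∘ ofComplex) 1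
  hol : MDiff F
  bdd : IsBoundedAtImInfty F

namespace Nice

variable {F G : ℍ → ℂ}

theorem analytic (h : Nice F) : AnalyticAt ℂ (cuspFunction 1 F) 0 :=
  analyticAt_cuspFunction_zero one_pos h.per h.hol h.bdd

theorem zero : Nice (0 : ℍ → ℂ) where
  per := fun _ => rfl
  hol := fun _ => mdifferentiableAt_const
  bdd := zero_form_isBoundedAtImInfty

theorem one : Nice (1 : ℍ → ℂ) where
  per := fun _ => rfl
  hol := fun _ => mdifferentiableAt_const
  bdd := const_boundedAtFilter _ _

theorem add (hF : Nice F) (hG : Nice G) : Nice (F + G) where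
  per := fun z => by
    have h1 := hF.per z
    have h2 := hG.per z
    simp only [Function.comp_apply, Pi.add_apply] at h1 h2 ⊢
    rw [h1, h2]
  hol := hF.hol.add hG.hol
  bdd := hF.bdd.add hG.bdd

theorem mul (hF : Nice F) (hG : Nice G) : Nice (F * G) where
  per := fun z => by
    have h1 := hF.per z
    have h2 := hG.per z
    simp only [Function.comp_apply, Pi.mul_apply] at h1 h2 ⊢
    rw [h1, h2]
  hol := hF.hol.mul hG.hol
  bdd := hF.bdd.mul hG.bdd

theorem smul (c : ℂ) (hF : Nice F) : Nice (c • F) where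
  per := fun z => by
    have h1 := hF.per z
    simp only [Function.comp_apply, Pi.smul_apply] at h1 ⊢
    rw [h1]
  hol := hF.hol.const_smul c
  bdd := hF.bdd.const_smul_left c

theorem pow (hF : Nice F) (n : ℕ) : Nice (F ^ n) := by
  induction n with
  | zero => simpa using one
  | succ n ih => rw [pow_succ]; exact ih.mul hF

theorem sum {ι : Type*} (s : Finset ι) {F : ι → ℍ → ℂ} (h : ∀ i ∈ s, Nice (F i)) :
    Nice (∑ i ∈ s, F i) := by
  classical
  induction s using Finset.induction_on with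
  | empty => simpa using zero
  | insert a s ha ih =>
    rw [Finset.sum_insert ha]
    exact (h a (Finset.mem_insert_self a s)).add (ih fun i hi => h i (Finset.mem_insert_of_mem hi))

theorem qe_add (hF : Nice F) (hG : Nice G) : qe (F + G) = qe F + qe G :=
  qExpansion_add hF.analytic hG.analytic

theorem qe_mul (hF : Nice F) (hG : Nice G) : qe (F * G) = qe F * qe G :=
  qExpansion_mul hF.analytic hG.analytic

theorem qe_smul (c : ℂ) (hF : Nice F) : qe (c • F) = c • qe F :=
  qExpansion_smul hF.analytic c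

theorem qe_pow (hF : Nice F) (n : ℕ) : qe (F ^ n) = qe F ^ n := by
  induction n with
  | zero => simpa using qExpansion_one 1
  | succ n ih => rw [pow_succ, pow_succ, (hF.pow n).qe_mul hF, ih]

theorem qe_sum {ι : Type*} (s : Finset ι) {F : ι → ℍ → ℂ} (h : ∀ i ∈ s, Nice (F i)) :
    qe (∑ i ∈ s, F i) = ∑ i ∈ s, qe (F i) := by
  classical
  induction s using Finset.induction_on with
  | empty => simpa using qExpansion_zero 1
  | insert a s ha ih =>
    rw [Finset.sum_insert ha, Finset.sum_insert ha,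
      (h a (Finset.mem_insert_self a s)).qe_add (sum s fun i hi => h i (Finset.mem_insert_of_mem hi)),
      ih fun i hi => h i (Finset.mem_insert_of_mem hi)]

theorem qe_eq_zero_iff (hF : Nice F) : qe F = 0 ↔ F = 0 :=
  qExpansion_eq_zero_iff one_pos hF.per hF.hol hF.bdd

end Nice

theorem one_mem_strictPeriods_G0 (N : ℕ) : (1 : ℝ) ∈ (G0 N).strictPeriods := by
  simp [CongruenceSubgroup.strictPeriods_Gamma0]

theorem IsMF.nice_of_strictPeriods {Γ : Subgroup (GL (Fin 2) ℝ)} (hΓ : (1 : ℝ) ∈ Γ.strictPeriods)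
    {k : ℤ} {F : ℍ → ℂ} (hF : IsMF Γ k F) : Nice F := by
  obtain ⟨f, rfl⟩ := hF
  have : Fact (IsCusp OnePoint.infty Γ) := ⟨Γ.isCusp_of_mem_strictPeriods one_pos hΓ⟩
  exact ⟨SlashInvariantFormClass.periodic_comp_ofComplex f hΓ, f.holo',
    ModularFormClass.bdd_at_infty f⟩

theorem IsMF.nice {N : ℕ} {k : ℤ} {F : ℍ → ℂ} (hF : IsMF (G0 N) k F) : Nice F :=
  hF.nice_of_strictPeriods (one_mem_strictPeriods_G0 N)

theorem IsMF.nice_one {k : ℤ} {F : ℍ → ℂ} (hF : IsMF 𝒮ℒ k F) : Nice F :=
  hF.nice_of_strictPeriods one_mem_strictPeriods_SL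

theorem IsCF.isMF {Γ : Subgroup (GL (Fin 2) ℝ)} {k : ℤ} {F : ℍ → ℂ} (hF : IsCF Γ k F) :
    IsMF Γ k F := by
  obtain ⟨f, rfl⟩ := hF
  exact ⟨ModularFormClass.modularForm f, rfl⟩

theorem IsMF.smul {Γ : Subgroup (GL (Fin 2) ℝ)} [Γ.HasDetOne] {k : ℤ} {F : ℍ → ℂ} (c : ℂ)
    (hF : IsMF Γ k F) : IsMF Γ k (c • F) := by
  obtain ⟨f, rfl⟩ := hF
  exact ⟨c • f, rfl⟩

theorem G0_le_SL (N : ℕ) : G0 N ≤ 𝒮ℒ := by
  rintro _ ⟨γ, _, rfl⟩
  exact ⟨γ, rfl⟩

/-- A level one form is a form of level `N`. -/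
theorem IsMF.of_levelOne (N : ℕ) {k : ℤ} {F : ℍ → ℂ} (hF : IsMF 𝒮ℒ k F) : IsMF (G0 N) k F := by
  obtain ⟨f, rfl⟩ := hF
  exact ⟨{ toFun := f
           slash_action_eq' := fun γ hγ => f.slash_action_eq' γ (G0_le_SL N hγ)
           holo' := f.holo'
           bdd_at_cusps' := fun hc => f.bdd_at_cusps' (hc.mono (G0_le_SL N)) }, rfl⟩

end Fermat.Agent.S23
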