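import Fermat.Agent.S23.Defs

/-!
# Bounded denominators (helper file for S23)

Pure power series algebra.

* `exists_int_of_frac_of_integral` : an element of `ℂ⟦X⟧` which is a fraction of elements of `ℤ⟦X⟧`
  and integral over `ℤ⟦X⟧` lies in `ℤ⟦X⟧` (`ℤ⟦X⟧` is a UFD).
* `BD_of_frac_of_integral` : the same with bounded denominators.
* `BB` : the `ℂ`-span of `ℤ⟦X⟧` in `ℂ⟦X⟧`, a subalgebra.
* `bounded_denominators` : a series with rational coefficients which is a fraction of elements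
  of `BB` and integral over `BB` has bounded denominators.
-/

set_option autoImplicit false

namespace Fermat.Agent.S23

open Polynomial

/-- The inclusion `ℤ⟦X⟧ → ℂ⟦X⟧`. -/
noncomputable abbrev iotaZ : PowerSeries ℤ →+* PowerSeries ℂ :=
  PowerSeries.map (Int.castRingHom ℂ)

theorem iotaZ_injective : Function.Injective iotaZ :=
  PowerSeries.map_injective _ (RingHom.injective_int _)

/-- `ℤ⟦X⟧` is "integrally closed in `ℂ⟦X⟧`" in the relevant sense. -/
theorem exists_int_of_frac_of_integral (y : PowerSeries ℂ) (a b : PowerSeries ℤ) (hb : b ≠ 0)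
    (hab : iotaZ b * y = iotaZ a) (p : (PowerSeries ℤ)[X]) (hp : p.Monic)
    (hy : p.eval₂ iotaZ y = 0) : ∃ z : PowerSeries ℤ, y = iotaZ z := by
  let K := FractionRing (PowerSeries ℤ)
  let L := FractionRing (PowerSeries ℂ)
  let g : PowerSeries ℤ →+* L := (algebraMap (PowerSeries ℂ) L).comp iotaZ
  have hg : Function.Injective g :=
    (IsFractionRing.injective (PowerSeries ℂ) L).comp iotaZ_injective
  let j : K →+* L := IsFractionRing.lift hg
  have hj : ∀ x, j (algebraMap (PowerSeries ℤ) K x) = g x := IsFractionRing.lift_algebraMap hg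
  let r : K := algebraMap _ K a / algebraMap _ K b
  have hbK : algebraMap (PowerSeries ℤ) K b ≠ 0 := by
    simpa using hb
  have hgb : g b ≠ 0 := by
    intro h
    exact hb (hg (by simpa using h))
  have hjr : j r = algebraMap (PowerSeries ℂ) L y := by
    have h1 : g b * algebraMap (PowerSeries ℂ) L y = g a := by
      simp only [g, RingHom.comp_apply, ← map_mul, hab]
    simp only [r, map_div₀, hj]
    rw [div_eq_iff hgb, ← h1, mul_comm]
  have hroot : aeval r p = 0 := by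
    apply j.injective
    rw [map_zero, aeval_def, hom_eval₂, hjr]
    have hcomp : j.comp (algebraMap (PowerSeries ℤ) K) = g := RingHom.ext hj
    rw [hcomp]
    have := congrArg (algebraMap (PowerSeries ℂ) L) hy
    rw [hom_eval₂, map_zero] at this
    exact this
  obtain ⟨z, hz⟩ := isInteger_of_is_root_of_monic hp hroot
  refine ⟨z, ?_⟩
  have h2 : b * z = a := by
    apply IsFractionRing.injective (PowerSeries ℤ) K
    rw [map_mul, hz]
    exact mul_div_cancel₀ _ hbK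
  have h3 : iotaZ b * y = iotaZ b * iotaZ z := by
    rw [hab, ← map_mul, h2]
  have hb' : iotaZ b ≠ 0 := by
    intro h
    exact hb (iotaZ_injective (by simpa using h))
  exact mul_left_cancel₀ hb' h3

/-! ### `IsInt` and `BD` -/

theorem coeff_intCast_mul (M : ℤ) (p : PowerSeries ℂ) (n : ℕ) :
    PowerSeries.coeff n ((M : PowerSeries ℂ) * p) = (M : ℂ) * PowerSeries.coeff n p := by
  have : (M : PowerSeries ℂ) = PowerSeries.C (M : ℂ) := (map_intCast _ M).symm
  rw [this, PowerSeries.coeff_C_mul]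

theorem isInt_iff {p : PowerSeries ℂ} : IsInt p ↔ ∃ g : PowerSeries ℤ, p = iotaZ g := by
  constructor
  · intro h
    choose z hz using h
    exact ⟨PowerSeries.mk z, by ext n; simp [hz]⟩
  · rintro ⟨g, rfl⟩ n
    exact ⟨PowerSeries.coeff n g, by simp⟩

theorem isInt_iotaZ (g : PowerSeries ℤ) : IsInt (iotaZ g) := isInt_iff.2 ⟨g, rfl⟩

/-- `M * p` is integral. -/
def IntMul (M : ℤ) (p : PowerSeries ℂ) : Prop := ∃ g : PowerSeries ℤ, (M : PowerSeries ℂ) * p = iotaZ g

theorem BD_iff {p : PowerSeries ℂ} : BD p ↔ ∃ M : ℤ, M ≠ 0 ∧ IntMul M p := by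
  constructor
  · rintro ⟨M, hM, h⟩
    refine ⟨M, hM, isInt_iff.1 fun n => ?_⟩
    obtain ⟨z, hz⟩ := h n
    exact ⟨z, by rw [coeff_intCast_mul, hz]⟩
  · rintro ⟨M, hM, h⟩
    refine ⟨M, hM, fun n => ?_⟩
    obtain ⟨z, hz⟩ := isInt_iff.2 h n
    exact ⟨z, by rw [← hz, coeff_intCast_mul]⟩

theorem IntMul.of_dvd {M M' : ℤ} {p : PowerSeries ℂ} (h : IntMul M p) (hd : M ∣ M') :
    IntMul M' p := by
  obtain ⟨g, hg⟩ := h
  obtain ⟨k, rfl⟩ := hd
  refine ⟨(k : PowerSeries ℤ) * g, ?_⟩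
  rw [map_mul, ← hg, map_intCast]
  push_cast
  ring

theorem IsInt.BD {p : PowerSeries ℂ} (h : IsInt p) : BD p :=
  ⟨1, one_ne_zero, fun n => by obtain ⟨z, hz⟩ := h n; exact ⟨z, by simp [hz]⟩⟩

theorem BD.zero : BD 0 := IsInt.BD fun n => ⟨0, by simp⟩

theorem BD.add {p q : PowerSeries ℂ} (hp : BD p) (hq : BD q) : BD (p + q) := by
  obtain ⟨M, hM, g, hg⟩ := BD_iff.1 hp
  obtain ⟨M', hM', g', hg'⟩ := BD_iff.1 hq
  refine BD_iff.2 ⟨M * M', mul_ne_zero hM hM', (M' : PowerSeries ℤ) * g + (M : PowerSeries ℤ) * g', ?_⟩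
  rw [map_add, map_mul, map_mul, ← hg, ← hg', map_intCast, map_intCast]
  push_cast
  ring

theorem BD.mul {p q : PowerSeries ℂ} (hp : BD p) (hq : BD q) : BD (p * q) := by
  obtain ⟨M, hM, g, hg⟩ := BD_iff.1 hp
  obtain ⟨M', hM', g', hg'⟩ := BD_iff.1 hq
  refine BD_iff.2 ⟨M * M', mul_ne_zero hM hM', g * g', ?_⟩
  rw [map_mul, ← hg, ← hg']
  push_cast
  ring

theorem BD.ratSmul {p : PowerSeries ℂ} (hp : BD p) (r : ℚ) : BD ((r : ℂ) • p) := by
  obtain ⟨M, hM, g, hg⟩ := BD_iff.1 hp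
  refine BD_iff.2 ⟨M * r.den, mul_ne_zero hM (by exact_mod_cast r.den_ne_zero),
    (r.num : PowerSeries ℤ) * g, ?_⟩
  rw [map_mul, ← hg, map_intCast]
  have h1 : (r : ℂ) • p = PowerSeries.C (r : ℂ) * p := by
    ext n; simp
  have h2 : ((r.den : ℤ) : PowerSeries ℂ) * PowerSeries.C (r : ℂ) = (r.num : PowerSeries ℂ) := by
    have h3 : ((r.den : ℤ) : PowerSeries ℂ) = PowerSeries.C ((r.den : ℂ)) := by
      simp
    have h4 : (r.num : PowerSeries ℂ) = PowerSeries.C ((r.num : ℂ)) := (map_intCast _ _).symm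
    rw [h3, h4, ← map_mul]
    congr 1
    have := Rat.den_mul_eq_num r
    exact_mod_cast congrArg (fun t : ℚ => (t : ℂ)) this
  rw [h1]
  push_cast
  calc (M : PowerSeries ℂ) * ((r.den : ℕ) : PowerSeries ℂ) * (PowerSeries.C (r : ℂ) * p)
      = (((r.den : ℤ) : PowerSeries ℂ) * PowerSeries.C (r : ℂ)) * ((M : PowerSeries ℂ) * p) := by
        push_cast; ring
    _ = _ := by rw [h2]

theorem BD.sum {ι : Type*} (s : Finset ι) (f : ι → PowerSeries ℂ) (h : ∀ i ∈ s, BD (f i)) :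
    BD (∑ i ∈ s, f i) := by
  classical
  induction s using Finset.induction_on with
  | empty => simpa using BD.zero
  | insert a s ha ih =>
    rw [Finset.sum_insert ha]
    exact (h a (Finset.mem_insert_self a s)).add
      (ih fun i hi => h i (Finset.mem_insert_of_mem hi))

/-- **(Z)** A fraction of series with bounded denominators which is integral over such series
has bounded denominators. -/
theorem BD_of_frac_of_integral (x a b : PowerSeries ℂ) (n : ℕ) (c : Fin n → PowerSeries ℂ)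
    (ha : BD a) (hb : BD b) (hb0 : b ≠ 0) (hc : ∀ i, BD (c i)) (hab : b * x = a)
    (hx : x ^ n + ∑ i : Fin n, c i * x ^ (n - 1 - (i : ℕ)) = 0) : BD x := by
  obtain ⟨Ma, hMa, ha'⟩ := BD_iff.1 ha
  obtain ⟨Mb, hMb, hb'⟩ := BD_iff.1 hb
  choose Mc hMc hc' using fun i => BD_iff.1 (hc i)
  let M : ℤ := Ma * Mb * ∏ i, Mc i
  have hM : M ≠ 0 := mul_ne_zero (mul_ne_zero hMa hMb) (Finset.prod_ne_zero_iff.2 fun i _ => hMc i)
  obtain ⟨a', ha''⟩ := ha'.of_dvd (M' := M) (Dvd.dvd.mul_right (Dvd.intro _ rfl) _)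
  obtain ⟨b', hb''⟩ := hb'.of_dvd (M' := M) (Dvd.dvd.mul_right (Dvd.intro_left _ rfl) _)
  have hc'' : ∀ i, IntMul M (c i) := fun i =>
    (hc' i).of_dvd (Dvd.dvd.mul_left (Finset.dvd_prod_of_mem _ (Finset.mem_univ i)) _)
  choose c' hc''' using hc''
  have hMC : (M : PowerSeries ℂ) ≠ 0 := by
    have h0 : (M : PowerSeries ℂ) = iotaZ (M : PowerSeries ℤ) := (map_intCast _ M).symm
    rw [h0]
    intro h
    have h1 : (M : PowerSeries ℤ) = 0 := iotaZ_injective (by simpa using h)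
    have h2 := congrArg (PowerSeries.coeff 0) h1
    have h3 : (M : PowerSeries ℤ) = PowerSeries.C M := by simp
    rw [h3] at h2
    simp at h2
    exact hM h2
  have hb'0 : b' ≠ 0 := by
    rintro rfl
    rw [map_zero] at hb''
    exact (mul_ne_zero hMC hb0) hb''
  let y : PowerSeries ℂ := (M : PowerSeries ℂ) * x
  let d : Fin n → PowerSeries ℤ := fun i => (M : PowerSeries ℤ) ^ (i : ℕ) * c' i
  let p : (PowerSeries ℤ)[X] := X ^ n + ∑ i : Fin n, C (d i) * X ^ (n - 1 - (i : ℕ))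
  have hdeg : (∑ i : Fin n, C (d i) * X ^ (n - 1 - (i : ℕ))).degree < (n : WithBot ℕ) := by
    refine lt_of_le_of_lt (degree_sum_le _ _) ?_
    refine (Finset.sup_lt_iff (WithBot.bot_lt_coe n)).2 ?_
    intro i _
    refine lt_of_le_of_lt (degree_C_mul_X_pow_le _ _) ?_
    have := i.2
    exact WithBot.coe_lt_coe.2 (by omega : n - 1 - (i : ℕ) < n)
  have hp : p.Monic := monic_X_pow_add hdeg
  have hy : p.eval₂ iotaZ y = 0 := by
    have h1 : p.eval₂ iotaZ y = (M : PowerSeries ℂ) ^ n *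
        (x ^ n + ∑ i : Fin n, c i * x ^ (n - 1 - (i : ℕ))) := by
      simp only [p, eval₂_add, eval₂_pow, eval₂_X, eval₂_finsetSum, eval₂_mul, eval₂_C]
      simp only [d, map_mul, map_pow, map_intCast, ← hc''', y, mul_add, Finset.mul_sum, mul_pow]
      congr 1
      refine Finset.sum_congr rfl fun i _ => ?_
      have hi : (M : PowerSeries ℂ) ^ n
          = (M : PowerSeries ℂ) ^ (i : ℕ) * (M : PowerSeries ℂ) * (M : PowerSeries ℂ) ^ (n - 1 - (i : ℕ)) := by
        rw [← pow_succ, ← pow_add]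
        congr 1
        have := i.2
        omega
      rw [hi]
      ring
    rw [h1, hx, mul_zero]
  have hfrac : iotaZ b' * y = iotaZ ((M : PowerSeries ℤ) * a') := by
    rw [map_mul, map_intCast, ← ha'', ← hb'', ← hab]
    ring
  obtain ⟨z, hz⟩ := exists_int_of_frac_of_integral y ((M : PowerSeries ℤ) * a') b' hb'0 hfrac p hp hy
  exact BD_iff.2 ⟨M, hM, z, hz⟩

/-! ### The `ℂ`-span of `ℤ⟦X⟧` -/

/-- The `ℂ`-span of `ℤ⟦X⟧` inside `ℂ⟦X⟧`; it is a subalgebra. -/
noncomputable def BB : Subalgebra ℂ (PowerSeries ℂ) := Algebra.adjoin ℂ (Set.range iotaZ)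

theorem mem_BB_iff {f : PowerSeries ℂ} : f ∈ BB ↔ f ∈ Submodule.span ℂ (Set.range iotaZ) := by
  have h : (Submonoid.closure (Set.range iotaZ) : Set (PowerSeries ℂ)) = Set.range iotaZ := by
    have : Set.range iotaZ = (MonoidHom.mrange (iotaZ : PowerSeries ℤ →* PowerSeries ℂ) : Set _) := by
      ext x; simp
    rw [this, Submonoid.closure_eq]
  rw [BB, ← Subalgebra.mem_toSubmodule, Algebra.adjoin_eq_span, h]

theorem iotaZ_mem_BB (g : PowerSeries ℤ) : iotaZ g ∈ BB := Algebra.subset_adjoin ⟨g, rfl⟩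

theorem IsInt.mem_BB {p : PowerSeries ℂ} (h : IsInt p) : p ∈ BB := by
  obtain ⟨g, rfl⟩ := isInt_iff.1 h
  exact iotaZ_mem_BB g

theorem BD.mem_BB {p : PowerSeries ℂ} (h : BD p) : p ∈ BB := by
  obtain ⟨M, hM, g, hg⟩ := BD_iff.1 h
  have hMC : (M : ℂ) ≠ 0 := by exact_mod_cast hM
  have : p = ((M : ℂ)⁻¹) • iotaZ g := by
    rw [← hg]
    ext n
    rw [PowerSeries.coeff_smul, coeff_intCast_mul, smul_eq_mul, inv_mul_cancel_left₀ hMC]
  rw [this]
  exact BB.smul_mem (iotaZ_mem_BB g) _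

/-- Apply a `ℚ`-linear functional `ℂ → ℚ` to all coefficients. -/
noncomputable def coeffwise (l : ℂ →ₗ[ℚ] ℚ) (f : PowerSeries ℂ) : PowerSeries ℂ :=
  PowerSeries.mk fun n => ((l (PowerSeries.coeff n f) : ℚ) : ℂ)

@[simp] theorem coeff_coeffwise (l : ℂ →ₗ[ℚ] ℚ) (f : PowerSeries ℂ) (n : ℕ) :
    PowerSeries.coeff n (coeffwise l f) = ((l (PowerSeries.coeff n f) : ℚ) : ℂ) := by
  simp [coeffwise]

theorem coeffwise_zero (l : ℂ →ₗ[ℚ] ℚ) : coeffwise l 0 = 0 := by
  ext n; simp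

theorem coeffwise_add (l : ℂ →ₗ[ℚ] ℚ) (f g : PowerSeries ℂ) :
    coeffwise l (f + g) = coeffwise l f + coeffwise l g := by
  ext n; simp

theorem coeffwise_sum (l : ℂ →ₗ[ℚ] ℚ) {ι : Type*} (s : Finset ι) (f : ι → PowerSeries ℂ) :
    coeffwise l (∑ i ∈ s, f i) = ∑ i ∈ s, coeffwise l (f i) := by
  ext n; simp

/-- the inclusion `ℚ⟦X⟧ → ℂ⟦X⟧` -/
noncomputable abbrev iotaQ : PowerSeries ℚ →+* PowerSeries ℂ :=
  PowerSeries.map (algebraMap ℚ ℂ)

theorem coeffwise_mul_iotaQ (l : ℂ →ₗ[ℚ] ℚ) (f : PowerSeries ℂ) (g : PowerSeries ℚ) :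
    coeffwise l (f * iotaQ g) = coeffwise l f * iotaQ g := by
  ext n
  simp only [coeff_coeffwise, PowerSeries.coeff_mul, PowerSeries.coeff_map, map_sum]
  push_cast
  refine Finset.sum_congr rfl fun ij _ => ?_
  have : PowerSeries.coeff ij.1 f * (algebraMap ℚ ℂ) (PowerSeries.coeff ij.2 g)
      = (PowerSeries.coeff ij.2 g) • PowerSeries.coeff ij.1 f := by
    rw [Algebra.smul_def, mul_comm]
  rw [this, map_smul]
  simp [mul_comm]

theorem coeffwise_iotaQ (l : ℂ →ₗ[ℚ] ℚ) (hl : l 1 = 1) (g : PowerSeries ℚ) :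
    coeffwise l (iotaQ g) = iotaQ g := by
  ext n
  simp only [coeff_coeffwise, PowerSeries.coeff_map]
  have : (algebraMap ℚ ℂ) (PowerSeries.coeff n g) = (PowerSeries.coeff n g) • (1 : ℂ) := by
    rw [Algebra.smul_def, mul_one]
  rw [this, map_smul, hl]
  simp

theorem BD_coeffwise_smul (l : ℂ →ₗ[ℚ] ℚ) {f : PowerSeries ℂ}
    (hf : f ∈ Submodule.span ℂ (Set.range iotaZ)) : ∀ a : ℂ, BD (coeffwise l (a • f)) := by
  induction hf using Submodule.span_induction with
  | mem x hx =>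
    intro a
    obtain ⟨g, rfl⟩ := hx
    have : coeffwise l (a • iotaZ g) = ((l a : ℚ) : ℂ) • iotaZ g := by
      ext n
      simp only [coeff_coeffwise, PowerSeries.coeff_map, PowerSeries.coeff_smul, smul_eq_mul]
      have h1 : a * (Int.castRingHom ℂ) (PowerSeries.coeff n g)
          = ((PowerSeries.coeff n g : ℤ) : ℚ) • a := by
        rw [Algebra.smul_def, mul_comm]; simp
      rw [h1, map_smul]
      simp [mul_comm]
    rw [this]
    exact (isInt_iotaZ g).BD.ratSmul _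
  | zero => intro a; rw [smul_zero, coeffwise_zero]; exact BD.zero
  | add x y _ _ hx hy => intro a; rw [smul_add, coeffwise_add]; exact (hx a).add (hy a)
  | smul b x _ hx => intro a; rw [smul_smul]; exact hx (a * b)

theorem BD_coeffwise (l : ℂ →ₗ[ℚ] ℚ) {f : PowerSeries ℂ} (hf : f ∈ BB) : BD (coeffwise l f) := by
  have := BD_coeffwise_smul l (mem_BB_iff.1 hf) 1
  rwa [one_smul] at this

/-- For `z ≠ 0` there is a `ℚ`-linear functional `l : ℂ → ℚ` with `l z = 1`. -/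
theorem exists_functional {z : ℂ} (hz : z ≠ 0) : ∃ l : ℂ →ₗ[ℚ] ℚ, l z = 1 := by
  obtain ⟨l, hl⟩ : ∃ l : Module.Dual ℚ ℂ, l z ≠ 0 := by
    by_contra h
    push Not at h
    exact hz ((Module.forall_dual_apply_eq_zero_iff ℚ z).1 h)
  exact ⟨(l z)⁻¹ • l, by simp [hl]⟩

/-- **(C)** A series with rational coefficients which is a fraction of elements of `BB` and
integral over `BB` has bounded denominators. -/
theorem bounded_denominators (g : PowerSeries ℚ) (D A : PowerSeries ℂ) (hD : D ∈ BB) (hA : A ∈ BB)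
    (hD0 : D ≠ 0) (hDA : D * iotaQ g = A) (n : ℕ) (a : Fin n → PowerSeries ℂ)
    (ha : ∀ i, a i ∈ BB)
    (hint : (iotaQ g) ^ n + ∑ i : Fin n, a i * (iotaQ g) ^ (n - 1 - (i : ℕ)) = 0) :
    BD (iotaQ g) := by
  -- make the fraction rational
  obtain ⟨m, hm⟩ : ∃ m, PowerSeries.coeff m D ≠ 0 := by
    by_contra h
    push Not at h
    exact hD0 (PowerSeries.ext (by simpa using h))
  obtain ⟨l₁, hl₁⟩ := exists_functional hm
  obtain ⟨l₂, hl₂⟩ := exists_functional (one_ne_zero : (1 : ℂ) ≠ 0)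
  have h1 : coeffwise l₁ D * iotaQ g = coeffwise l₁ A := by
    rw [← coeffwise_mul_iotaQ, hDA]
  have h1' : coeffwise l₁ D ≠ 0 := by
    intro h
    have := congrArg (PowerSeries.coeff m) h
    simp [hl₁] at this
  have h2 : (iotaQ g) ^ n + ∑ i : Fin n, coeffwise l₂ (a i) * (iotaQ g) ^ (n - 1 - (i : ℕ)) = 0 := by
    have := congrArg (coeffwise l₂) hint
    rw [coeffwise_add, coeffwise_sum, coeffwise_zero, ← map_pow, coeffwise_iotaQ l₂ hl₂] at this
    rw [← this, map_pow]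
    congr 1
    refine Finset.sum_congr rfl fun i _ => ?_
    rw [← map_pow, coeffwise_mul_iotaQ]
  exact BD_of_frac_of_integral (iotaQ g) _ _ n _ (BD_coeffwise l₁ hA) (BD_coeffwise l₁ hD) h1'
    (fun i => BD_coeffwise l₂ (ha i)) h1 h2

end Fermat.Agent.S23
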