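import Fermat.Agent.S23.Defs

/-!
# S23, piece (C): Cramer's rule

For `h` a modular form on `Γ₀(N)` whose `SL₂(ℤ)`-translates are pairwise distinct, every modular
form `f` on `Γ₀(N)` satisfies `D * f = ∑ j, x j * h ^ j` with `D ≠ 0` and `x j` of level one.
-/

set_option autoImplicit false

namespace Fermat.Agent.S23

open UpperHalfPlane ModularForm
open scoped MatrixGroups Manifold

namespace CramerAux

section closure

variable {Γ : Subgroup (GL (Fin 2) ℝ)}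

theorem isMF_zero (k : ℤ) : IsMF Γ k 0 := ⟨0, rfl⟩

theorem isMF_add {k : ℤ} {F G : ℍ → ℂ} (hF : IsMF Γ k F) (hG : IsMF Γ k G) :
    IsMF Γ k (F + G) := by
  obtain ⟨f, rfl⟩ := hF
  obtain ⟨g, rfl⟩ := hG
  exact ⟨f + g, rfl⟩

theorem isMF_neg {k : ℤ} {F : ℍ → ℂ} (hF : IsMF Γ k F) : IsMF Γ k (-F) := by
  obtain ⟨f, rfl⟩ := hF
  exact ⟨-f, rfl⟩

theorem isMF_cast {k k' : ℤ} {F : ℍ → ℂ} (h : k = k') (hF : IsMF Γ k F) : IsMF Γ k' F := h ▸ hF

theorem isMF_sum {ι : Type*} (s : Finset ι) {k : ℤ} {F : ι → ℍ → ℂ}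
    (h : ∀ i ∈ s, IsMF Γ k (F i)) : IsMF Γ k (∑ i ∈ s, F i) := by
  classical
  induction s using Finset.induction_on with
  | empty => simpa using isMF_zero k
  | insert a s ha ih =>
    rw [Finset.sum_insert ha]
    exact isMF_add (h a (Finset.mem_insert_self a s))
      (ih fun i hi => h i (Finset.mem_insert_of_mem hi))

variable [Γ.HasDetPlusMinusOne]

theorem isMF_one : IsMF Γ 0 1 := ⟨1, one_coe_eq_one⟩

theorem isMF_mul {k k' : ℤ} {F G : ℍ → ℂ} (hF : IsMF Γ k F) (hG : IsMF Γ k' G) :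
    IsMF Γ (k + k') (F * G) := by
  obtain ⟨f, rfl⟩ := hF
  obtain ⟨g, rfl⟩ := hG
  exact ⟨f.mul g, rfl⟩

theorem isMF_prod {ι : Type*} (s : Finset ι) {k : ι → ℤ} {F : ι → ℍ → ℂ}
    (h : ∀ i ∈ s, IsMF Γ (k i) (F i)) : IsMF Γ (∑ i ∈ s, k i) (∏ i ∈ s, F i) := by
  classical
  induction s using Finset.induction_on with
  | empty => simpa using isMF_one
  | insert a s ha ih =>
    rw [Finset.sum_insert ha, Finset.prod_insert ha]
    exact isMF_mul (h a (Finset.mem_insert_self a s))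
      (ih fun i hi => h i (Finset.mem_insert_of_mem hi))

/-- The determinant of a matrix of modular forms whose `(i, j)` entry has weight `r i + c j`. -/
theorem isMF_det {n : ℕ} (M : Matrix (Fin n) (Fin n) (ℍ → ℂ)) (r c : Fin n → ℤ)
    (hM : ∀ i j, IsMF Γ (r i + c j) (M i j)) : IsMF Γ (∑ i, r i + ∑ j, c j) M.det := by
  rw [Matrix.det_apply]
  refine isMF_sum _ fun σ _ => ?_
  have h1 : IsMF Γ (∑ i, r i + ∑ j, c j) (∏ i, M (σ i) i) := by
    have h2 := isMF_prod (Γ := Γ) Finset.univ (k := fun i => r (σ i) + c i)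
      (F := fun i => M (σ i) i) fun i _ => hM (σ i) i
    refine isMF_cast ?_ h2
    rw [Finset.sum_add_distrib, Equiv.sum_comp σ r]
  rcases Int.units_eq_one_or (Equiv.Perm.sign σ) with hs | hs
  · rw [hs, one_smul]
    exact h1
  · rw [hs, Units.neg_smul, one_smul]
    exact isMF_neg h1

/-- The entries of the adjugate of a matrix of modular forms. -/
theorem isMF_adjugate {n : ℕ} (M : Matrix (Fin n) (Fin n) (ℍ → ℂ)) (r c : Fin n → ℤ)
    (hM : ∀ i j, IsMF Γ (r i + c j) (M i j)) (i j : Fin n) :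
    IsMF Γ (∑ a, r a + ∑ b, c b - r j - c i) (M.adjugate i j) := by
  classical
  rw [Matrix.adjugate_apply]
  have h1 := isMF_det (Γ := Γ) (M.updateRow j (Pi.single i 1)) (Function.update r j (-c i)) c
    (by
      intro a b
      by_cases ha : a = j
      · subst ha
        rw [Matrix.updateRow_self, Function.update_self]
        by_cases hb : b = i
        · subst hb
          rw [Pi.single_eq_same]
          exact isMF_cast (by ring) isMF_one
        · rw [Pi.single_eq_of_ne hb]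
          exact isMF_zero _
      · rw [Matrix.updateRow_ne ha, Function.update_of_ne ha]
        exact hM a b)
  refine isMF_cast ?_ h1
  rw [Finset.sum_update_of_mem (Finset.mem_univ j)]
  have : ∑ a, r a = r j + ∑ a ∈ Finset.univ \ {j}, r a := by
    rw [← Finset.sum_sdiff (Finset.subset_univ {j}), Finset.sum_singleton, add_comm]
  rw [this]
  ring

end closure

section algebra

variable {R : Type*} [CommRing R] {n : ℕ}

/-- The algebraic identity behind Cramer's rule for the normal equations. -/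
theorem vandermonde_identity (V : Matrix (Fin n) (Fin n) R) (ψ : Fin n → R) :
    V.mulVec ((V.transpose * V).adjugate.mulVec (V.transpose.mulVec ψ)) =
      (V.transpose * V).det • ψ := by
  rw [Matrix.mulVec_mulVec, Matrix.mulVec_mulVec, Matrix.adjugate_mul_distrib]
  have h1 : V * (V.adjugate * V.transpose.adjugate * V.transpose) =
      (V.transpose * V).det • (1 : Matrix (Fin n) (Fin n) R) := by
    rw [Matrix.mul_assoc, Matrix.adjugate_mul, Matrix.mul_smul, Matrix.mul_one, Matrix.mul_smul,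
      Matrix.mul_adjugate, smul_smul, Matrix.det_mul]
  rw [Matrix.mul_assoc, h1, Matrix.smul_mulVec, Matrix.one_mulVec]

end algebra

section quotient

open SlashInvariantForm

variable {𝒢 : Subgroup (GL (Fin 2) ℝ)} [𝒢.HasDetPlusMinusOne]

theorem quotientFunc_mul {k k' : ℤ} (f : ModularForm 𝒢 k) (g : ModularForm 𝒢 k')
    (q : (𝒮ℒ : Subgroup (GL (Fin 2) ℝ)) ⧸ (𝒢.subgroupOf 𝒮ℒ)) :
    quotientFunc (f.mul g) q = quotientFunc f q * quotientFunc g q := by
  induction q using Quotient.inductionOn with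
  | h r =>
    rw [quotientFunc_mk, quotientFunc_mk, quotientFunc_mk, ModularForm.coe_mul,
      ModularForm.mul_slash]
    have h1 : |((r.val⁻¹ : GL (Fin 2) ℝ).det : ℝ)| = 1 :=
      Subgroup.HasDetPlusMinusOne.abs_det (inv_mem r.2)
    rw [h1, one_smul]

theorem quotientFunc_pow {l : ℤ} (h : ModularForm 𝒢 l) (m : ℕ)
    (q : (𝒮ℒ : Subgroup (GL (Fin 2) ℝ)) ⧸ (𝒢.subgroupOf 𝒮ℒ)) :
    quotientFunc (h.pow m) q = (quotientFunc h q) ^ m := by
  induction q using Quotient.inductionOn with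
  | h r =>
    rw [quotientFunc_mk, quotientFunc_mk, ModularForm.coe_pow]
    have h1 : |((r.val⁻¹ : GL (Fin 2) ℝ).det : ℝ)| = 1 :=
      Subgroup.HasDetPlusMinusOne.abs_det (inv_mem r.2)
    have h2 := ModularForm.prod_slash (k := l) (g := (r.val⁻¹ : GL (Fin 2) ℝ))
      (f := fun _ : ℕ => (⇑h : ℍ → ℂ)) (s := Finset.range m)
    rw [h1, one_zpow, one_smul, Finset.prod_const, Finset.prod_const, Finset.card_range] at h2
    rw [mul_comm, h2]

omit [𝒢.HasDetPlusMinusOne] in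
theorem mdiff_quotientFunc {l : ℤ} (h : ModularForm 𝒢 l)
    (q : (𝒮ℒ : Subgroup (GL (Fin 2) ℝ)) ⧸ (𝒢.subgroupOf 𝒮ℒ)) :
    MDiff (quotientFunc h q) := by
  induction q using Quotient.inductionOn with
  | h r => exact (ModularForm.translate h r.val⁻¹).holo'

variable [𝒢.IsFiniteRelIndex 𝒮ℒ]

omit [𝒢.HasDetPlusMinusOne] in
theorem isMF_sum_quotientFunc [Fintype ((𝒮ℒ : Subgroup (GL (Fin 2) ℝ)) ⧸ (𝒢.subgroupOf 𝒮ℒ))]
    {κ : ℤ} (g : ModularForm 𝒢 κ) :
    IsMF 𝒮ℒ κ (∑ q : (𝒮ℒ : Subgroup (GL (Fin 2) ℝ)) ⧸ (𝒢.subgroupOf 𝒮ℒ), quotientFunc g q) := by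
  refine ⟨ModularForm.trace 𝒮ℒ g, ?_⟩
  rw [ModularForm.coe_trace]
  refine Finset.sum_congr ?_ fun _ _ => rfl
  ext q
  simp

end quotient

end CramerAux

open CramerAux SlashInvariantForm in
/-- (C) Cramer's rule. -/
theorem cramer (N : ℕ) [NeZero N] (l : ℤ) (h : ModularForm (G0 N) l)
    (hstab : ∀ γ : SL(2, ℤ), (⇑h ∣[l] γ = ⇑h) → γ ∈ CongruenceSubgroup.Gamma0 N)
    (k : ℤ) (f : ModularForm (G0 N) k) :
    ∃ (n : ℕ) (w : ℤ) (D : ℍ → ℂ) (x : Fin n → ℍ → ℂ),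
      IsMF 𝒮ℒ w D ∧ D ≠ 0 ∧ (∀ j : Fin n, IsMF 𝒮ℒ (w + k - l * (j : ℕ)) (x j)) ∧
      D * ⇑f = ∑ j : Fin n, x j * (⇑h) ^ (j : ℕ) := by
  classical
  have hfin : Finite ((𝒮ℒ : Subgroup (GL (Fin 2) ℝ)) ⧸ ((G0 N).subgroupOf 𝒮ℒ)) :=
    Subgroup.finite_quotient_of_finiteIndex
  let _ : Fintype ((𝒮ℒ : Subgroup (GL (Fin 2) ℝ)) ⧸ ((G0 N).subgroupOf 𝒮ℒ)) := Fintype.ofFinite _
  set n := Fintype.card ((𝒮ℒ : Subgroup (GL (Fin 2) ℝ)) ⧸ ((G0 N).subgroupOf 𝒮ℒ)) with hn
  let e : Fin n ≃ ((𝒮ℒ : Subgroup (GL (Fin 2) ℝ)) ⧸ ((G0 N).subgroupOf 𝒮ℒ)) :=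
    (Fintype.equivFin _).symm
  set φ : Fin n → ℍ → ℂ := fun a => quotientFunc h (e a) with hφ
  set ψ : Fin n → ℍ → ℂ := fun a => quotientFunc f (e a) with hψ
  set V : Matrix (Fin n) (Fin n) (ℍ → ℂ) := Matrix.vandermonde φ with hV
  set r : Fin n → ℤ := fun i => l * ((i : ℕ) : ℤ) with hr
  have hH : ∀ i j, IsMF 𝒮ℒ (r i + r j) ((V.transpose * V) i j) := by
    intro i j
    have h1 : (V.transpose * V) i j =
        ∑ q : (𝒮ℒ : Subgroup (GL (Fin 2) ℝ)) ⧸ ((G0 N).subgroupOf 𝒮ℒ),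
          quotientFunc (h.pow ((i : ℕ) + (j : ℕ))) q := by
      rw [Matrix.mul_apply, ← Equiv.sum_comp e]
      refine Finset.sum_congr rfl fun a _ => ?_
      rw [quotientFunc_pow, Matrix.transpose_apply, hV, Matrix.vandermonde_apply,
        Matrix.vandermonde_apply, pow_add]
    rw [h1]
    refine isMF_cast ?_ (isMF_sum_quotientFunc (h.pow ((i : ℕ) + (j : ℕ))))
    simp only [hr]
    push_cast
    ring
  have ht : ∀ i, IsMF 𝒮ℒ (k + r i) (V.transpose.mulVec ψ i) := by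
    intro i
    have h1 : V.transpose.mulVec ψ i =
        ∑ q : (𝒮ℒ : Subgroup (GL (Fin 2) ℝ)) ⧸ ((G0 N).subgroupOf 𝒮ℒ),
          quotientFunc ((h.pow (i : ℕ)).mul f) q := by
      rw [Matrix.mulVec, dotProduct, ← Equiv.sum_comp e]
      refine Finset.sum_congr rfl fun a _ => ?_
      rw [quotientFunc_mul, quotientFunc_pow, Matrix.transpose_apply, hV,
        Matrix.vandermonde_apply]
    rw [h1]
    refine isMF_cast ?_ (isMF_sum_quotientFunc ((h.pow (i : ℕ)).mul f))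
    simp only [hr]
    ring
  have hdiff : ∀ a, MDiff (φ a) := fun a => mdiff_quotientFunc h (e a)
  have hinj : ∀ a b, φ a = φ b → a = b := by
    intro a b hab
    apply e.injective
    obtain ⟨g, hg⟩ := QuotientGroup.mk_surjective (e a)
    obtain ⟨g', hg'⟩ := QuotientGroup.mk_surjective (e b)
    have ha : φ a = ⇑h ∣[l] (g.val⁻¹ : GL (Fin 2) ℝ) := by
      simp only [hφ]
      rw [← hg]
      rfl
    have hb : φ b = ⇑h ∣[l] (g'.val⁻¹ : GL (Fin 2) ℝ) := by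
      simp only [hφ]
      rw [← hg']
      rfl
    rw [ha, hb] at hab
    have h1 : ⇑h ∣[l] ((g.val⁻¹ : GL (Fin 2) ℝ) * g'.val) = ⇑h := by
      rw [SlashAction.slash_mul, hab, ← SlashAction.slash_mul, inv_mul_cancel,
        SlashAction.slash_one]
    obtain ⟨γ, hγ⟩ : ∃ γ : SL(2, ℤ), Matrix.SpecialLinearGroup.mapGL ℝ γ =
        (g.val⁻¹ : GL (Fin 2) ℝ) * g'.val := (g⁻¹ * g').2
    have h2 : γ ∈ CongruenceSubgroup.Gamma0 N := by
      apply hstab
      rw [ModularForm.SL_slash]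
      rw [← hγ] at h1
      exact h1
    rw [← hg, ← hg', QuotientGroup.eq, Subgroup.mem_subgroupOf]
    exact ⟨γ, h2, hγ⟩
  have hdetV : MDiff V.det ∧ V.det ≠ 0 := by
    rw [hV, Matrix.det_vandermonde]
    have h1 : ∀ i : Fin n, ∀ j ∈ Finset.Ioi i, MDiff (φ j - φ i) := fun i j _ =>
      (hdiff j).sub (hdiff i)
    have h2 : ∀ i : Fin n, MDiff (∏ j ∈ Finset.Ioi i, (φ j - φ i)) := fun i =>
      MDifferentiable.prod (h1 i)
    refine ⟨MDifferentiable.prod fun i _ => h2 i, ?_⟩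
    intro h0
    obtain ⟨i, -, hi⟩ := (UpperHalfPlane.prod_eq_zero_iff fun i _ => h2 i).1 h0
    obtain ⟨j, hj, hij⟩ := (UpperHalfPlane.prod_eq_zero_iff (h1 i)).1 hi
    have := hinj j i (sub_eq_zero.1 hij)
    rw [Finset.mem_Ioi] at hj
    exact hj.ne' this
  refine ⟨n, ∑ i, r i + ∑ j, r j, (V.transpose * V).det,
    (V.transpose * V).adjugate.mulVec (V.transpose.mulVec ψ),
    isMF_det _ r r hH, ?_, ?_, ?_⟩
  · rw [Matrix.det_mul, Matrix.det_transpose]
    intro h0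
    rcases (UpperHalfPlane.mul_eq_zero_iff hdetV.1 hdetV.1).1 h0 with h0 | h0 <;>
      exact hdetV.2 h0
  · intro j
    rw [Matrix.mulVec, dotProduct]
    refine isMF_sum _ fun i _ => ?_
    refine isMF_cast ?_ (isMF_mul (isMF_adjugate _ r r hH j i) (ht i))
    simp only [hr]
    ring
  · have h1 := congrFun (vandermonde_identity V ψ) (e.symm (QuotientGroup.mk 1))
    have hφ1 : φ (e.symm (QuotientGroup.mk 1)) = ⇑h := by
      simp only [hφ, Equiv.apply_symm_apply]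
      change ⇑h ∣[l] ((1 : (𝒮ℒ : Subgroup (GL (Fin 2) ℝ))).val⁻¹ : GL (Fin 2) ℝ) = ⇑h
      simp
    have hψ1 : ψ (e.symm (QuotientGroup.mk 1)) = ⇑f := by
      simp only [hψ, Equiv.apply_symm_apply]
      change ⇑f ∣[k] ((1 : (𝒮ℒ : Subgroup (GL (Fin 2) ℝ))).val⁻¹ : GL (Fin 2) ℝ) = ⇑f
      simp
    rw [Pi.smul_apply, hψ1, smul_eq_mul] at h1
    rw [← h1, Matrix.mulVec, dotProduct]
    refine Finset.sum_congr rfl fun j _ => ?_
    rw [hV, Matrix.vandermonde_apply, hφ1, mul_comm]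

end Fermat.Agent.S23
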