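import Fermat.Agent.S23.Defs

/-!
# S23, piece (V): division

If `U, D` are modular forms for `Γ₀(N)`, `D ≠ 0`, and `U / D` satisfies a monic equation whose
coefficients are level one cusp forms (homogeneously), then `U / D` is a cusp form.
-/

set_option autoImplicit false

namespace Fermat.Agent.S23

open UpperHalfPlane ModularForm Filter Topology
open scoped MatrixGroups Manifold

section RootBounds

/-- Cauchy type bound for the roots of a monic polynomial. -/
theorem norm_le_of_monic_root {n : ℕ} (x : ℂ) (a : Fin n → ℂ)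
    (h : x ^ n + ∑ i : Fin n, a i * x ^ (n - 1 - (i : ℕ)) = 0) :
    ‖x‖ ≤ max 1 (∑ i : Fin n, ‖a i‖) := by
  rcases le_or_gt ‖x‖ 1 with h1 | h1
  · exact le_max_of_le_left h1
  · refine le_max_of_le_right ?_
    rcases Nat.eq_zero_or_pos n with rfl | hn
    · simp at h
    have hx : x ^ n = - ∑ i : Fin n, a i * x ^ (n - 1 - (i : ℕ)) := eq_neg_of_add_eq_zero_left h
    have h2 : ‖x‖ ^ n ≤ (∑ i : Fin n, ‖a i‖) * ‖x‖ ^ (n - 1) := by
      calc ‖x‖ ^ n = ‖x ^ n‖ := (norm_pow _ _).symm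
        _ = ‖∑ i : Fin n, a i * x ^ (n - 1 - (i : ℕ))‖ := by rw [hx, norm_neg]
        _ ≤ ∑ i : Fin n, ‖a i * x ^ (n - 1 - (i : ℕ))‖ := norm_sum_le _ _
        _ ≤ ∑ i : Fin n, ‖a i‖ * ‖x‖ ^ (n - 1) := by
            refine Finset.sum_le_sum fun i _ => ?_
            rw [norm_mul, norm_pow]
            exact mul_le_mul_of_nonneg_left
              (pow_le_pow_right₀ h1.le (Nat.sub_le _ _)) (norm_nonneg _)
        _ = (∑ i : Fin n, ‖a i‖) * ‖x‖ ^ (n - 1) := by rw [Finset.sum_mul]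
    have h3 : ‖x‖ ^ n = ‖x‖ * ‖x‖ ^ (n - 1) := by
      rw [← pow_succ', Nat.sub_add_cancel hn]
    rw [h3] at h2
    exact le_of_mul_le_mul_right h2 (pow_pos (by linarith) _)

/-- If the coefficients are small, so is the root. -/
theorem norm_pow_le_of_monic_root {n : ℕ} (x : ℂ) (a : Fin n → ℂ)
    (h : x ^ n + ∑ i : Fin n, a i * x ^ (n - 1 - (i : ℕ)) = 0)
    (hS : ∑ i : Fin n, ‖a i‖ ≤ 1) : ‖x‖ ^ n ≤ ∑ i : Fin n, ‖a i‖ := by
  have h1 : ‖x‖ ≤ 1 := by
    have := norm_le_of_monic_root x a h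
    rwa [max_eq_left hS] at this
  have hx : x ^ n = - ∑ i : Fin n, a i * x ^ (n - 1 - (i : ℕ)) := eq_neg_of_add_eq_zero_left h
  calc ‖x‖ ^ n = ‖x ^ n‖ := (norm_pow _ _).symm
    _ = ‖∑ i : Fin n, a i * x ^ (n - 1 - (i : ℕ))‖ := by rw [hx, norm_neg]
    _ ≤ ∑ i : Fin n, ‖a i * x ^ (n - 1 - (i : ℕ))‖ := norm_sum_le _ _
    _ ≤ ∑ i : Fin n, ‖a i‖ := by
        refine Finset.sum_le_sum fun i _ => ?_
        rw [norm_mul, norm_pow]
        exact mul_le_of_le_one_right (norm_nonneg _) (pow_le_one₀ (norm_nonneg _) h1)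

end RootBounds

/-- A quotient of analytic functions which is integral over the continuous functions is analytic. -/
theorem exists_analytic_quotient {Ω : Set ℂ} {u d : ℂ → ℂ} {n : ℕ}
    {c : Fin n → ℂ → ℂ} (hu : AnalyticOnNhd ℂ u Ω) (hd : AnalyticOnNhd ℂ d Ω)
    (hc : ∀ i, ∀ z ∈ Ω, ContinuousAt (c i) z)
    (hd0 : ∀ z ∈ Ω, ∀ᶠ w in 𝓝[≠] z, d w ≠ 0)
    (heq : ∀ z ∈ Ω, ∀ᶠ w in 𝓝 z, u w ^ n + ∑ i : Fin n, c i w * u w ^ (n - 1 - (i : ℕ)) * d w ^ ((i : ℕ) + 1) = 0) :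
    ∃ g : ℂ → ℂ, AnalyticOnNhd ℂ g Ω ∧ ∀ z ∈ Ω, d z * g z = u z := by
  set f : ℂ → ℂ := fun z => u z / d z with hf
  have hfm : MeromorphicOn f Ω := fun z hz => (hu z hz).meromorphicAt.div (hd z hz).meromorphicAt
  have han : AnalyticOnNhd ℂ (toMeromorphicNFOn f Ω) Ω := by
    intro z hz
    have hNF := meromorphicNFOn_toMeromorphicNFOn f Ω hz
    rw [← hNF.meromorphicOrderAt_nonneg_iff_analyticAt, meromorphicOrderAt_toMeromorphicNFOn hfm hz]
    by_contra hneg
    rw [not_le] at hneg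
    have ht := tendsto_cobounded_of_meromorphicOrderAt_neg hneg
    -- boundedness
    have hb : ∀ᶠ w in 𝓝[≠] z, ‖f w‖ ≤ max 1 (∑ i : Fin n, (‖c i z‖ + 1)) := by
      have h1 : ∀ᶠ w in 𝓝[≠] z, ∀ i : Fin n, ‖c i w‖ ≤ ‖c i z‖ + 1 := by
        rw [eventually_all]
        intro i
        have : ∀ᶠ w in 𝓝 z, ‖c i w‖ < ‖c i z‖ + 1 :=
          (hc i z hz).norm.eventually_lt continuousAt_const (by simp)
        exact (this.filter_mono nhdsWithin_le_nhds).mono fun w hw => hw.le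
      filter_upwards [h1, hd0 z hz, (heq z hz).filter_mono nhdsWithin_le_nhds] with w hw1 hw2 hw3
      have hroot : f w ^ n + ∑ i : Fin n, c i w * f w ^ (n - 1 - (i : ℕ)) = 0 := by
        have hdn : d w ^ n ≠ 0 := pow_ne_zero _ hw2
        apply mul_left_cancel₀ hdn
        rw [mul_zero, ← hw3, mul_add, Finset.mul_sum]
        congr 1
        · rw [hf]; simp only; rw [div_pow, mul_div_cancel₀ _ hdn]
        · refine Finset.sum_congr rfl fun i _ => ?_
          have hi : d w ^ n = d w ^ (n - 1 - (i : ℕ)) * d w ^ ((i : ℕ) + 1) := by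
            rw [← pow_add]; congr 1; have := i.2; omega
          rw [hf]; simp only
          rw [div_pow, hi]
          field_simp
      refine (norm_le_of_monic_root _ _ hroot).trans (max_le_max le_rfl ?_)
      exact Finset.sum_le_sum fun i _ => hw1 i
    have h2 := ht.eventually (eventually_cobounded_le_norm (max 1 (∑ i : Fin n, (‖c i z‖ + 1)) + 1))
    obtain ⟨w, hw1, hw2⟩ := (hb.and h2).exists
    linarith
  refine ⟨toMeromorphicNFOn f Ω, han, ?_⟩
  intro z hz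
  have h1 : (fun w => d w * toMeromorphicNFOn f Ω w) =ᶠ[𝓝[≠] z] u := by
    filter_upwards [hfm.toMeromorphicNFOn_eq_self_on_nhdsNE hz, hd0 z hz] with w hw1 hw2
    rw [hw1, hf]; simp only; field_simp
  have hc1 : ContinuousAt (fun w => d w * toMeromorphicNFOn f Ω w) z :=
    (hd z hz).continuousAt.mul (han z hz).continuousAt
  have := (hc1.eventuallyEq_nhds_iff_eventuallyEq_nhdsNE (hu z hz).continuousAt).mp h1
  exact this.eq_of_nhds

/-- holomorphic quotient on the upper half plane -/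
theorem exists_mdiff_quotient {n : ℕ} {U D : ℍ → ℂ} {c : Fin n → ℍ → ℂ}
    (hU : MDiff U) (hD : MDiff D) (hD0 : D ≠ 0) (hc : ∀ i, MDiff (c i))
    (heq : U ^ n + ∑ i : Fin n, c i * U ^ (n - 1 - (i : ℕ)) * D ^ ((i : ℕ) + 1) = 0) :
    ∃ G : ℍ → ℂ, MDiff G ∧ D * G = U := by
  have hΩ : IsOpen {z : ℂ | 0 < z.im} := isOpen_upperHalfPlaneSet
  have hu := (UpperHalfPlane.mdifferentiable_iff.mp hU).analyticOnNhd hΩ
  have hd := (UpperHalfPlane.mdifferentiable_iff.mp hD).analyticOnNhd hΩ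
  have hc' : ∀ i, ∀ z ∈ {z : ℂ | 0 < z.im}, ContinuousAt (c i ∘ ofComplex) z := fun i z hz =>
    (((UpperHalfPlane.mdifferentiable_iff.mp (hc i)).analyticOnNhd hΩ) z hz).continuousAt
  have hd0 : ∀ z ∈ {z : ℂ | 0 < z.im}, ∀ᶠ w in 𝓝[≠] z, (D ∘ ofComplex) w ≠ 0 := by
    intro z hz
    by_contra hcon
    rw [not_eventually] at hcon
    simp only [not_not] at hcon
    have hpre : IsPreconnected {z : ℂ | 0 < z.im} :=
      (Complex.isConnected_of_upperHalfPlane subset_rfl (by grind)).isPreconnected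
    have := hd.eqOn_zero_of_preconnected_of_frequently_eq_zero hpre hz hcon
    apply hD0
    ext τ
    have h2 := this τ.im_pos
    simpa using h2
  have heq' : ∀ z ∈ {z : ℂ | 0 < z.im}, ∀ᶠ w in 𝓝 z, (U ∘ ofComplex) w ^ n +
      ∑ i : Fin n, (c i ∘ ofComplex) w * (U ∘ ofComplex) w ^ (n - 1 - (i : ℕ)) *
        (D ∘ ofComplex) w ^ ((i : ℕ) + 1) = 0 := by
    intro z _
    refine Eventually.of_forall fun w => ?_
    have := congrFun heq (ofComplex w)
    simpa using this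
  obtain ⟨g, hg, hgd⟩ := exists_analytic_quotient hu hd hc' hd0 heq'
  refine ⟨fun τ => g τ, ?_, ?_⟩
  · rw [UpperHalfPlane.mdifferentiable_iff]
    refine hg.differentiableOn.congr fun z hz => ?_
    simp [ofComplex_apply_of_im_pos hz]
  · ext τ
    have := hgd τ τ.im_pos
    simpa using this

/-- **(V) Division.** -/
theorem division (N : ℕ) [NeZero N] (k w : ℤ) (n : ℕ) (U D : ℍ → ℂ)
    (hU : IsMF (G0 N) (w + k) U) (hD : IsMF (G0 N) w D) (hD0 : D ≠ 0)
    (c : Fin n → ℍ → ℂ) (hc : ∀ i : Fin n, IsCF 𝒮ℒ (k * ((i : ℕ) + 1)) (c i))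
    (heq : U ^ n + ∑ i : Fin n, c i * U ^ (n - 1 - (i : ℕ)) * D ^ ((i : ℕ) + 1) = 0) :
    ∃ g : CuspForm (G0 N) k, D * ⇑g = U := by
  obtain ⟨fU, rfl⟩ := hU
  obtain ⟨fD, rfl⟩ := hD
  choose fc hfc using hc
  have hcM : ∀ i, MDiff (c i) := fun i => hfc i ▸ (fc i).holo'
  obtain ⟨G, hG, hDG⟩ : ∃ G : ℍ → ℂ, MDiff G ∧ ⇑fD * G = ⇑fU :=
    exists_mdiff_quotient fU.holo' fD.holo' hD0 hcM heq
  -- monic relation for G
  have hrel : ∀ τ, G τ ^ n + ∑ i : Fin n, c i τ * G τ ^ (n - 1 - (i : ℕ)) = 0 := by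
    set R : ℍ → ℂ := G ^ n + ∑ i : Fin n, c i * G ^ (n - 1 - (i : ℕ)) with hR
    have hRM : MDiff R := by
      refine (hG.pow n).add ?_
      exact MDifferentiable.sum fun i _ => (hcM i).mul (hG.pow _)
    have hDR : ⇑fD * R = 0 := by
      ext τ
      by_cases hτ : fD τ = 0
      · simp [hτ]
      · have h1 : fU τ ^ n + ∑ i : Fin n, c i τ * fU τ ^ (n - 1 - (i : ℕ)) * fD τ ^ ((i : ℕ) + 1) = 0 := by
          simpa using congrFun heq τ
        have h2 : fU τ = fD τ * G τ := (congrFun hDG τ).symm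
        have h3 : fD τ ^ n * R τ = 0 := by
          rw [← h1, h2]
          simp only [hR, Pi.add_apply, Pi.pow_apply, Finset.sum_apply, Pi.mul_apply]
          rw [mul_add, Finset.mul_sum, mul_pow]
          congr 1
          refine Finset.sum_congr rfl fun i _ => ?_
          have hi : fD τ ^ n = fD τ ^ (n - 1 - (i : ℕ)) * fD τ ^ ((i : ℕ) + 1) := by
            rw [← pow_add]; congr 1; have := i.2; omega
          rw [hi, mul_pow]; ring
        have h4 : R τ = 0 := (mul_eq_zero.mp h3).resolve_left (pow_ne_zero _ hτ)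
        simp [h4]
    have hR0 : R = 0 := ((UpperHalfPlane.mul_eq_zero_iff fD.holo' hRM).mp hDR).resolve_left hD0
    intro τ
    have := congrFun hR0 τ
    simpa [hR] using this
  -- invariance
  have hinv : ∀ γ ∈ G0 N, G ∣[k] γ = G := by
    rintro _ ⟨γ, hγ, rfl⟩
    have hmem : Matrix.SpecialLinearGroup.mapGL ℝ γ ∈ G0 N := ⟨γ, hγ, rfl⟩
    have h1 : (⇑fD * G) ∣[w + k] γ = (⇑fD ∣[w] γ) * (G ∣[k] γ) := mul_slash_SL2 w k γ _ _
    have h2 : ⇑fD ∣[w] γ = ⇑fD := fD.slash_action_eq' _ hmem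
    have h3 : ⇑fU ∣[w + k] γ = ⇑fU := fU.slash_action_eq' _ hmem
    rw [hDG, h2, h3] at h1
    have h4 : ⇑fD * (G ∣[k] γ - G) = 0 := by
      rw [mul_sub, ← h1, hDG, sub_self]
    have h5 := ((UpperHalfPlane.mul_eq_zero_iff fD.holo' ((hG.slash k _).sub hG)).mp h4).resolve_left hD0
    exact sub_eq_zero.mp h5
  -- zero at cusps
  have hzero : ∀ γ : SL(2, ℤ), IsZeroAtImInfty (G ∣[k] γ) := by
    intro γ
    have hn : n ≠ 0 := by
      rintro rfl
      simpa using hrel I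
    -- the translated function satisfies the same equation
    have hrel' : ∀ τ, (G ∣[k] γ) τ ^ n +
        ∑ i : Fin n, c i τ * (G ∣[k] γ) τ ^ (n - 1 - (i : ℕ)) = 0 := by
      intro τ
      set ε : ℂ := denom γ τ ^ (-k) with hε
      have hG' : (G ∣[k] γ) τ = G (γ • τ) * ε := SL_slash_apply _ _ _
      have hci : ∀ i : Fin n, c i τ = c i (γ • τ) * ε ^ ((i : ℕ) + 1) := by
        intro i
        have h1 : ⇑(fc i) ∣[k * (((i : ℕ) : ℤ) + 1)] γ = ⇑(fc i) :=
          (fc i).slash_action_eq' _ ⟨γ, rfl⟩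
        have h2 := congrFun h1 τ
        rw [SL_slash_apply, hfc i] at h2
        rw [← h2, hε, ← zpow_natCast, ← zpow_mul]
        congr 2
        push_cast
        ring
      have h3 : (G ∣[k] γ) τ ^ n + ∑ i : Fin n, c i τ * (G ∣[k] γ) τ ^ (n - 1 - (i : ℕ)) =
          ε ^ n * (G (γ • τ) ^ n + ∑ i : Fin n, c i (γ • τ) * G (γ • τ) ^ (n - 1 - (i : ℕ))) := by
        rw [mul_add, Finset.mul_sum, hG', mul_pow]
        congr 1
        · ring
        · refine Finset.sum_congr rfl fun i _ => ?_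
          have hi : ε ^ n = ε ^ (n - 1 - (i : ℕ)) * ε ^ ((i : ℕ) + 1) := by
            rw [← pow_add]; congr 1; have := i.2; omega
          rw [hci i, hi, mul_pow]; ring
      rw [h3, hrel, mul_zero]
    have hS : Tendsto (fun τ : ℍ => ∑ i : Fin n, ‖c i τ‖) atImInfty (𝓝 0) := by
      have : Tendsto (fun τ : ℍ => ∑ i : Fin n, ‖c i τ‖) atImInfty (𝓝 (∑ i : Fin n, (0 : ℝ))) := by
        refine tendsto_finsetSum _ fun i _ => ?_
        have h1 : IsZeroAtImInfty (fc i) := CuspFormClass.zero_at_infty (fc i)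
        rw [hfc i] at h1
        exact tendsto_zero_iff_norm_tendsto_zero.mp h1
      simpa using this
    have hpow : Tendsto (fun τ : ℍ => ‖(G ∣[k] γ) τ‖ ^ n) atImInfty (𝓝 0) := by
      refine squeeze_zero' (Eventually.of_forall fun τ => by positivity) ?_ hS
      filter_upwards [hS.eventually (ge_mem_nhds (show (0 : ℝ) < 1 by norm_num))] with τ hτ
      exact norm_pow_le_of_monic_root _ _ (hrel' τ) hτ
    have h4 := hpow.rpow_const (p := (n : ℝ)⁻¹) (Or.inr (by positivity))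
    rw [Real.zero_rpow (by positivity)] at h4
    refine tendsto_zero_iff_norm_tendsto_zero.mpr (h4.congr fun τ => ?_)
    exact Real.pow_rpow_inv_natCast (norm_nonneg _) hn
  refine ⟨{ toFun := G, slash_action_eq' := hinv, holo' := hG, zero_at_cusps' := ?_ }, hDG⟩
  intro c hc
  rw [Subgroup.IsArithmetic.isCusp_iff_isCusp_SL2Z] at hc
  rw [OnePoint.isZeroAt_iff_forall_SL2Z hc]
  exact fun γ _ => hzero γ

end Fermat.Agent.S23
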