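import Fermat.Agent.S23.Defs

/-!
# S23, piece (E): integrality of a cusp form over level one

A cusp form `f` of level `Γ₀(N)` is a root of a monic polynomial whose lower coefficients are
cusp forms of level one (the elementary symmetric functions of the conjugates of `f`).
-/

set_option autoImplicit false

namespace Fermat.Agent.S23

open UpperHalfPlane ModularForm SlashInvariantForm
open scoped MatrixGroups Manifold Topology

section esymm

variable {𝒢 ℋ : Subgroup (GL (Fin 2) ℝ)} {k : ℤ}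

local notation "𝒬" => ℋ ⧸ (𝒢.subgroupOf ℋ)

/-- The `m`-th elementary symmetric function of the conjugates of `g`, as a function. -/
noncomputable def esymmFun [Fintype 𝒬] [DecidableEq 𝒬] (g : CuspForm 𝒢 k) (m : ℕ) : ℍ → ℂ :=
  ∑ t ∈ Finset.powersetCard m (Finset.univ : Finset 𝒬), ∏ q ∈ t, quotientFunc g q

lemma esymmFun_slash [Fintype 𝒬] [DecidableEq 𝒬] [ℋ.HasDetPlusMinusOne] (g : CuspForm 𝒢 k) (m : ℕ)
    {h : GL (Fin 2) ℝ} (hh : h ∈ ℋ) :
    esymmFun (ℋ := ℋ) g m ∣[k * m] h = esymmFun (ℋ := ℋ) g m := by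
  unfold esymmFun
  rw [SlashAction.sum_slash]
  have key : ∀ t ∈ Finset.powersetCard m (Finset.univ : Finset 𝒬),
      (∏ q ∈ t, quotientFunc g q) ∣[k * m] h =
        ∏ q ∈ t.map (MulAction.toPerm (⟨h, hh⟩ : ℋ)⁻¹).toEmbedding, quotientFunc g q := by
    intro t ht
    have hcard : t.card = m := (Finset.mem_powersetCard.mp ht).2
    rw [← hcard, ModularForm.prod_slash, Subgroup.HasDetPlusMinusOne.abs_det hh, one_zpow,
      one_smul, Finset.prod_map]
    refine Finset.prod_congr rfl fun q _ => ?_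
    rw [quotientFunc_smul g hh]
    rfl
  rw [Finset.sum_congr rfl key]
  refine Finset.sum_bij (fun t _ => t.map (MulAction.toPerm (⟨h, hh⟩ : ℋ)⁻¹).toEmbedding)
    ?_ ?_ ?_ ?_
  · intro t ht
    rw [Finset.mem_powersetCard] at ht ⊢
    exact ⟨Finset.subset_univ _, by rw [Finset.card_map]; exact ht.2⟩
  · intro t _ t' _ htt'
    exact Finset.map_injective _ htt'
  · intro t ht
    refine ⟨t.map (MulAction.toPerm (⟨h, hh⟩ : ℋ)).toEmbedding, ?_, ?_⟩
    · rw [Finset.mem_powersetCard] at ht ⊢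
      exact ⟨Finset.subset_univ _, by rw [Finset.card_map]; exact ht.2⟩
    · rw [Finset.map_map]
      convert Finset.map_refl
      ext q
      simp
  · intro t _
    rfl

lemma mdiff_quotientFunc (g : CuspForm 𝒢 k) (q : 𝒬) : MDiff (quotientFunc g q) := by
  induction q using Quotient.inductionOn with
  | h r => exact (CuspForm.translate g r.val⁻¹).holo'

lemma mdiff_esymmFun [Fintype 𝒬] [DecidableEq 𝒬] (g : CuspForm 𝒢 k) (m : ℕ) :
    MDiff (esymmFun (ℋ := ℋ) g m) :=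
  .sum fun _ _ => .prod fun q _ => mdiff_quotientFunc g q

lemma isZeroAtImInfty_quotientFunc_slash [𝒢.IsFiniteRelIndex ℋ] (g : CuspForm 𝒢 k) (q : 𝒬)
    {γ : GL (Fin 2) ℝ} (hc : IsCusp (γ • OnePoint.infty) ℋ) :
    IsZeroAtImInfty (quotientFunc g q ∣[k] γ) := by
  induction q using Quotient.inductionOn with
  | h r =>
    obtain ⟨r, hr⟩ := r
    refine (CuspForm.translate g _).zero_at_cusps' ?_ γ rfl
    simpa using hc.of_isFiniteRelIndex_conj hr

lemma isZeroAt_esymmFun [Fintype 𝒬] [DecidableEq 𝒬] [𝒢.IsFiniteRelIndex ℋ] (g : CuspForm 𝒢 k)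
    {m : ℕ} (hm : 0 < m) {c : OnePoint ℝ} (hc : IsCusp c ℋ) :
    c.IsZeroAt (esymmFun (ℋ := ℋ) g m) (k * m) := by
  intro γ hγ
  subst hγ
  unfold esymmFun
  rw [SlashAction.sum_slash, IsZeroAtImInfty, Filter.ZeroAtFilter, Finset.sum_fn]
  rw [show (0 : ℂ) = ∑ _t ∈ Finset.powersetCard m (Finset.univ : Finset 𝒬), 0 by simp]
  refine tendsto_finsetSum _ fun t ht => ?_
  have hcard : t.card = m := (Finset.mem_powersetCard.mp ht).2
  rw [← hcard, ModularForm.prod_slash]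
  have h0 : Filter.Tendsto (fun τ => ∏ q ∈ t, (quotientFunc g q ∣[k] γ) τ) atImInfty (𝓝 0) := by
    have := tendsto_finsetProd t (fun q _ => isZeroAtImInfty_quotientFunc_slash (ℋ := ℋ) g q hc)
    rwa [Finset.prod_const, hcard, zero_pow hm.ne'] at this
  have h1 := h0.const_smul (|γ.det.val| ^ ((t.card : ℤ) - 1))
  rw [smul_zero] at h1
  refine h1.congr fun τ => ?_
  simp [Finset.prod_apply]

/-- The `m`-th elementary symmetric function (`m > 0`) of the conjugates of a cusp form,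
as a cusp form. -/
noncomputable def esymmForm [Fintype 𝒬] [DecidableEq 𝒬] [𝒢.IsFiniteRelIndex ℋ]
    [ℋ.HasDetPlusMinusOne] (g : CuspForm 𝒢 k) {m : ℕ} (hm : 0 < m) : CuspForm ℋ (k * m) where
  toFun := esymmFun (ℋ := ℋ) g m
  slash_action_eq' _ hh := esymmFun_slash g m hh
  holo' := mdiff_esymmFun g m
  zero_at_cusps' hc := isZeroAt_esymmFun g hm hc

/-- The polynomial identity `∏ (ψ_q + F) = F ^ n + ∑ e_{i+1} F ^ (n - 1 - i)`. -/
lemma prod_add_eq_esymm {ι R : Type*} [Fintype ι] [DecidableEq ι] [CommRing R] (ψ : ι → R) (F : R) :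
    ∏ q, (ψ q + F) = F ^ Fintype.card ι + ∑ i : Fin (Fintype.card ι),
      (∑ t ∈ Finset.powersetCard ((i : ℕ) + 1) (Finset.univ : Finset ι), ∏ q ∈ t, ψ q) *
        F ^ (Fintype.card ι - 1 - (i : ℕ)) := by
  rw [Finset.prod_add, Finset.sum_powerset, Finset.card_univ, Finset.sum_range_succ',
    Finset.powersetCard_zero, Finset.sum_singleton, Finset.prod_empty, one_mul, Finset.sdiff_empty,
    Finset.prod_const, Finset.card_univ, add_comm, ← Fin.sum_univ_eq_sum_range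
      (fun i => ∑ t ∈ Finset.powersetCard (i + 1) (Finset.univ : Finset ι),
        (∏ q ∈ t, ψ q) * ∏ _q ∈ Finset.univ \ t, F)]
  congr 1
  refine Finset.sum_congr rfl fun i _ => ?_
  rw [Finset.sum_mul]
  refine Finset.sum_congr rfl fun t ht => ?_
  have hcard : t.card = (i : ℕ) + 1 := (Finset.mem_powersetCard.mp ht).2
  rw [Finset.prod_const, Finset.card_sdiff_of_subset (Finset.subset_univ t), Finset.card_univ, hcard,
    Nat.sub_sub, add_comm 1]

end esymm

/-- (E) integrality -/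
theorem integrality (N : ℕ) [NeZero N] (k : ℤ) (f : CuspForm (G0 N) k) :
    ∃ (n : ℕ) (c : Fin n → ℍ → ℂ),
      (∀ i : Fin n, IsCF 𝒮ℒ (k * ((i : ℕ) + 1)) (c i)) ∧
      (⇑f) ^ n + ∑ i : Fin n, c i * (⇑f) ^ (n - 1 - (i : ℕ)) = 0 := by
  classical
  let _ : Fintype (𝒮ℒ ⧸ ((G0 N).subgroupOf 𝒮ℒ)) := Fintype.ofFinite _
  refine ⟨Fintype.card (𝒮ℒ ⧸ ((G0 N).subgroupOf 𝒮ℒ)),
    fun i => esymmFun (ℋ := 𝒮ℒ) (-f) ((i : ℕ) + 1), fun i => ?_, ?_⟩
  · have h : IsCF 𝒮ℒ (k * (((i : ℕ) + 1 : ℕ) : ℤ)) (esymmFun (ℋ := 𝒮ℒ) (-f) ((i : ℕ) + 1)) :=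
      ⟨esymmForm (ℋ := 𝒮ℒ) (-f) (Nat.succ_pos (i : ℕ)), rfl⟩
    rwa [Nat.cast_add, Nat.cast_one] at h
  · unfold esymmFun
    rw [← prod_add_eq_esymm]
    refine Finset.prod_eq_zero (Finset.mem_univ (⟦1⟧ : 𝒮ℒ ⧸ ((G0 N).subgroupOf 𝒮ℒ))) ?_
    rw [quotientFunc_mk]
    simp

end Fermat.Agent.S23
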