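import Fermat.Agent.S23.Defs

/-!
# S23 (L1): level one modular forms are spanned by forms with integral `q`-expansion
-/

set_option autoImplicit false

namespace Fermat.Agent.S23

open UpperHalfPlane ModularForm ModularFormClass EisensteinSeries
open scoped MatrixGroups Manifold

theorem isInt_iff_mem_range (p : PowerSeries ℂ) :
    IsInt p ↔ p ∈ (PowerSeries.map (Int.castRingHom ℂ)).range := by
  constructor
  · intro h
    choose z hz using h
    exact ⟨PowerSeries.mk z, by ext n; simp [hz]⟩
  · rintro ⟨g, rfl⟩ n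
    exact ⟨g.coeff n, by simp⟩

theorem IsInt.mul {p q : PowerSeries ℂ} (hp : IsInt p) (hq : IsInt q) : IsInt (p * q) := by
  rw [isInt_iff_mem_range] at *; exact mul_mem hp hq

theorem IsInt.add {p q : PowerSeries ℂ} (hp : IsInt p) (hq : IsInt q) : IsInt (p + q) := by
  rw [isInt_iff_mem_range] at *; exact add_mem hp hq

theorem IsInt.sub {p q : PowerSeries ℂ} (hp : IsInt p) (hq : IsInt q) : IsInt (p - q) := by
  rw [isInt_iff_mem_range] at *; exact sub_mem hp hq

theorem IsInt.pow {p : PowerSeries ℂ} (hp : IsInt p) (n : ℕ) : IsInt (p ^ n) := by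
  rw [isInt_iff_mem_range] at *; exact pow_mem hp n

theorem IsInt.one : IsInt 1 := by
  rw [isInt_iff_mem_range]; exact one_mem _

theorem IsInt.zero : IsInt 0 := by
  rw [isInt_iff_mem_range]; exact zero_mem _

theorem IsInt.int_smul {p : PowerSeries ℂ} (hp : IsInt p) (M : ℤ) : IsInt ((M : ℂ) • p) := by
  intro n
  obtain ⟨z, hz⟩ := hp n
  exact ⟨M * z, by simp [hz]⟩

/-- A nonzero integer multiple of the Eisenstein series `E_k` has integral `q`-expansion. -/
theorem exists_int_smul_E {k : ℕ} (hk : 3 ≤ k) (hk2 : Even k) :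
    ∃ M : ℤ, M ≠ 0 ∧ IsInt ((M : ℂ) • qe (E hk)) := by
  set r : ℚ := 2 * k / bernoulli k with hr
  refine ⟨r.den, by exact_mod_cast r.den_nz, fun n => ?_⟩
  rw [PowerSeries.coeff_smul, E_qExpansion_coeff hk hk2]
  have hrc : (2 * k / bernoulli k : ℂ) = (r : ℂ) := by rw [hr]; push_cast; ring
  have hden : ((r.den : ℤ) : ℂ) * (r : ℂ) = (r.num : ℂ) := by
    have := Rat.den_mul_eq_num r
    exact_mod_cast congrArg (fun x : ℚ => (x : ℂ)) this
  split_ifs with h0
  · exact ⟨r.den, by simp⟩
  · refine ⟨-(r.num * (ArithmeticFunction.sigma (k - 1) n : ℕ)), ?_⟩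
    rw [hrc, smul_eq_mul]
    push_cast
    linear_combination (-(ArithmeticFunction.sigma (k - 1) n : ℂ)) * hden

theorem analyticAt_cuspFunction_of_isMF {k : ℤ} {F : ℍ → ℂ} (hF : IsMF 𝒮ℒ k F) :
    AnalyticAt ℂ (cuspFunction 1 F) 0 := by
  obtain ⟨f, rfl⟩ := hF
  exact ModularFormClass.analyticAt_cuspFunction_zero f one_pos one_mem_strictPeriods_SL

/-- A nonzero integer multiple of the discriminant has integral `q`-expansion. -/
theorem exists_int_smul_discriminant :
    ∃ C : ℤ, C ≠ 0 ∧ IsInt ((C : ℂ) • qe ModularForm.discriminant) := by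
  obtain ⟨M4, hM4, h4⟩ := exists_int_smul_E (k := 4) (by norm_num) (by decide)
  obtain ⟨M6, hM6, h6⟩ := exists_int_smul_E (k := 6) (by norm_num) (by decide)
  refine ⟨1728 * M4 ^ 3 * M6 ^ 2, by positivity, ?_⟩
  have hq : qe ModularForm.discriminant =
      (1 / 1728 : ℂ) • (qe E₄ ^ 3 - qe E₆ ^ 2) := by
    have hfun : (ModularForm.discriminant : ℍ → ℂ) =
        (1 / 1728 : ℂ) • ((⇑(E₄.pow 3) : ℍ → ℂ) - ⇑(E₆.pow 2)) := by
      funext z
      simp only [Pi.smul_apply, Pi.sub_apply, coe_pow, Pi.pow_apply, smul_eq_mul]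
      rw [discriminant_eq_E₄_cube_sub_E₆_sq z]
      ring
    have ha3 := ModularFormClass.analyticAt_cuspFunction_zero (E₄.pow 3) one_pos
      one_mem_strictPeriods_SL
    have ha2 := ModularFormClass.analyticAt_cuspFunction_zero (E₆.pow 2) one_pos
      one_mem_strictPeriods_SL
    have hsub : AnalyticAt ℂ (cuspFunction 1 ((⇑(E₄.pow 3) : ℍ → ℂ) - ⇑(E₆.pow 2))) 0 := by
      rw [cuspFunction_sub ha3.continuousAt ha2.continuousAt]
      exact ha3.sub ha2
    rw [qe, hfun, qExpansion_smul hsub, qExpansion_sub ha3 ha2,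
      ModularForm.qExpansion_pow one_pos one_mem_strictPeriods_SL,
      ModularForm.qExpansion_pow one_pos one_mem_strictPeriods_SL]
  have hkey : ((1728 * M4 ^ 3 * M6 ^ 2 : ℤ) : ℂ) • qe ModularForm.discriminant =
      ((M6 ^ 2 : ℤ) : ℂ) • ((M4 : ℂ) • qe E₄) ^ 3 - ((M4 ^ 3 : ℤ) : ℂ) • ((M6 : ℂ) • qe E₆) ^ 2 := by
    rw [hq]
    simp only [smul_pow, smul_sub, smul_smul]
    push_cast
    congr 1 <;> congr 1 <;> ring
  rw [hkey]
  exact ((h4.pow 3).int_smul _).sub ((h6.pow 2).int_smul _)

/-- The set of level one forms of weight `k` with integral `q`-expansion. -/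
def intSet (k : ℤ) : Set (ℍ → ℂ) := {G | IsMF 𝒮ℒ k G ∧ IsInt (qe G)}

theorem mem_span_intSet : ∀ (n : ℕ) (k : ℤ), k < n → ∀ f : ModularForm 𝒮ℒ k,
    (⇑f : ℍ → ℂ) ∈ Submodule.span ℂ (intSet k) := by
  intro n
  induction n using Nat.strong_induction_on with
  | _ n ih =>
  intro k hkn f
  rcases lt_trichotomy k 0 with hk | hk | hk
  · rw [levelOne_neg_weight_eq_zero hk f]
    exact zero_mem _
  · subst hk
    obtain ⟨c, hc⟩ := levelOne_weight_zero_const f
    have h1 : (1 : ℍ → ℂ) ∈ intSet 0 :=
      ⟨⟨1, by ext; simp⟩, by rw [qe, qExpansion_one]; exact IsInt.one⟩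
    have : (⇑f : ℍ → ℂ) = c • (1 : ℍ → ℂ) := by
      rw [hc]; funext z; simp
    rw [this]
    exact Submodule.smul_mem _ _ (Submodule.subset_span h1)
  · obtain ⟨m, rfl⟩ : ∃ m : ℕ, k = m := ⟨k.toNat, (Int.toNat_of_nonneg hk.le).symm⟩
    rcases Nat.even_or_odd m with hm | hm
    · by_cases hm2 : m = 2
      · subst hm2
        have hz : f = 0 := (rank_zero_iff_forall_zero.1 levelOne_weight_two_rank_zero) f
        rw [hz]
        exact zero_mem _
      · have hm3 : 3 ≤ m := by
          have : 0 < m := by exact_mod_cast hk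
          obtain ⟨t, ht⟩ := hm
          omega
        obtain ⟨M, hM, hME⟩ := exists_int_smul_E hm3 hm
        obtain ⟨C, hC, hCD⟩ := exists_int_smul_discriminant
        obtain ⟨a, g, hg, hcusp⟩ : ∃ (a : ℂ) (g : ModularForm 𝒮ℒ (m : ℤ)),
            g = f - a • E hm3 ∧ (qExpansion 1 g).coeff 0 = 0 :=
          ⟨_, _, rfl, (isCuspForm_iff_coeffZero_eq_zero _).1
            (sub_smul_isCuspForm f (E hm3) (E_qExpansion_coeff_zero hm3 hm))⟩
        obtain ⟨f', hf'⟩ : ∃ f' : ModularForm 𝒮ℒ ((m : ℤ) - 12),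
            f' = CuspForm.discriminantEquiv (toCuspForm g hcusp) := ⟨_, rfl⟩
        have hmul : ModularForm.discriminant * (⇑f' : ℍ → ℂ) = ⇑f - a • ⇑(E hm3) := by
          rw [hf', discriminant_mul_discriminantEquiv]
          funext z
          rw [toCuspForm_apply, hg]
          rfl
        have hIH : (⇑f' : ℍ → ℂ) ∈ Submodule.span ℂ (intSet ((m : ℤ) - 12)) := by
          have hmn : m < n := by exact_mod_cast hkn
          exact ih m hmn _ (by omega) f'
        -- multiplication by the discriminant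
        have hD : ∀ G ∈ Submodule.span ℂ (intSet ((m : ℤ) - 12)),
            ModularForm.discriminant * G ∈ Submodule.span ℂ (intSet (m : ℤ)) := by
          intro G hG
          induction hG using Submodule.span_induction with
          | mem G hG =>
            obtain ⟨⟨g, rfl⟩, hgint⟩ := hG
            have hmem : ((C : ℂ) • ModularForm.discriminant) * (⇑g : ℍ → ℂ) ∈ intSet (m : ℤ) := by
              refine ⟨⟨(C : ℂ) • (CuspForm.ofMulDiscriminant g : CuspForm 𝒮ℒ (m : ℤ)).toModularFormₗ,
                ?_⟩, ?_⟩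
              · funext z
                simp [CuspForm.toModularFormₗ_apply, mul_assoc]
              · have hΔ := ModularFormClass.analyticAt_cuspFunction_zero CuspForm.discriminant
                  one_pos one_mem_strictPeriods_SL
                have hg := ModularFormClass.analyticAt_cuspFunction_zero g
                  one_pos one_mem_strictPeriods_SL
                rw [CuspForm.coe_discriminant] at hΔ
                have hΔ' : AnalyticAt ℂ (cuspFunction 1 ((C : ℂ) • ModularForm.discriminant)) 0 := by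
                  rw [cuspFunction_smul hΔ.continuousAt]
                  exact hΔ.const_smul
                rw [qe, qExpansion_mul hΔ' hg, qExpansion_smul hΔ]
                exact hCD.mul hgint
            have : ModularForm.discriminant * (⇑g : ℍ → ℂ) =
                (1 / (C : ℂ)) • (((C : ℂ) • ModularForm.discriminant) * (⇑g : ℍ → ℂ)) := by
              have hC' : (C : ℂ) ≠ 0 := by exact_mod_cast hC
              funext z
              simp only [Pi.mul_apply, Pi.smul_apply, smul_eq_mul]
              field_simp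
            rw [this]
            exact Submodule.smul_mem _ _ (Submodule.subset_span hmem)
          | zero => rw [mul_zero]; exact zero_mem _
          | add x y _ _ hx hy => rw [mul_add]; exact add_mem hx hy
          | smul c x _ hx => rw [mul_smul_comm]; exact Submodule.smul_mem _ _ hx
        have hE : (⇑(E hm3) : ℍ → ℂ) ∈ Submodule.span ℂ (intSet (m : ℤ)) := by
          have hmem : (M : ℂ) • (⇑(E hm3) : ℍ → ℂ) ∈ intSet (m : ℤ) := by
            refine ⟨⟨(M : ℂ) • E hm3, rfl⟩, ?_⟩
            rw [qe, ModularForm.qExpansion_smul one_pos one_mem_strictPeriods_SL]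
            exact hME
          have hM' : (M : ℂ) ≠ 0 := by exact_mod_cast hM
          have : (⇑(E hm3) : ℍ → ℂ) = (1 / (M : ℂ)) • ((M : ℂ) • (⇑(E hm3) : ℍ → ℂ)) := by
            rw [smul_smul, one_div, inv_mul_cancel₀ hM', one_smul]
          rw [this]
          exact Submodule.smul_mem _ _ (Submodule.subset_span hmem)
        have hfin : (⇑f : ℍ → ℂ) = ModularForm.discriminant * (⇑f' : ℍ → ℂ) + a • ⇑(E hm3) := by
          rw [hmul]; abel
        rw [hfin]
        exact add_mem (hD _ hIH) (Submodule.smul_mem _ _ hE)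
    · have hodd : Odd (m : ℤ) := by exact_mod_cast hm
      rw [ModularForm.levelOne_odd_weight_eq_zero hodd f]
      exact zero_mem _

/-- (L1) level one forms are spanned by forms with integral q-expansion -/
theorem levelOne_intSpanned (k : ℤ) (F : ℍ → ℂ) (hF : IsMF 𝒮ℒ k F) :
    ∃ (m : ℕ) (c : Fin m → ℂ) (G : Fin m → ℍ → ℂ),
      (∀ i, IsMF 𝒮ℒ k (G i)) ∧ (∀ i, IsInt (qe (G i))) ∧ F = ∑ i, c i • G i := by
  obtain ⟨f, rfl⟩ := hF
  have h := mem_span_intSet (k.toNat + 1) k (by have := Int.self_le_toNat k; push_cast; omega) f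
  obtain ⟨m, c, G, hG⟩ := Submodule.mem_span_set'.1 h
  exact ⟨m, c, fun i => (G i : ℍ → ℂ), fun i => (G i).2.1, fun i => (G i).2.2, hG.symm⟩

end Fermat.Agent.S23
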