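import Fermat.Agent.S23.Nice
import Fermat.Agent.S23.LevelOne
import Fermat.Agent.S23.Cramer
import Fermat.Agent.S23.Integrality
import Fermat.Agent.S23.Division

/-!
# S23: conjugating a cusp form by a ring endomorphism of `ℂ`

For `f ∈ S_k(Γ₀(N))` and `σ : ℂ →+* ℂ`, the series obtained by applying `σ` to the coefficients
of the `q`-expansion of `f` is again the `q`-expansion of an element of `S_k(Γ₀(N))`.
-/

set_option autoImplicit false

namespace Fermat.Agent.S23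

open UpperHalfPlane ModularForm Filter Topology
open scoped MatrixGroups Manifold

theorem IsInt.map_eq {p : PowerSeries ℂ} (hp : IsInt p) (σ : ℂ →+* ℂ) : p.map σ = p := by
  ext n
  obtain ⟨z, hz⟩ := hp n
  rw [PowerSeries.coeff_map, hz, map_intCast]

theorem BD.map_eq {p : PowerSeries ℂ} (hp : BD p) (σ : ℂ →+* ℂ) : p.map σ = p := by
  ext n
  obtain ⟨M, hM, h⟩ := hp
  obtain ⟨z, hz⟩ := h n
  have hMC : (M : ℂ) ≠ 0 := by exact_mod_cast hM
  have h1 : p.coeff n = (z : ℂ) / (M : ℂ) := by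
    rw [← hz]; field_simp
  rw [PowerSeries.coeff_map, h1, map_div₀, map_intCast, map_intCast]

theorem map_smul_powerSeries (σ : ℂ →+* ℂ) (c : ℂ) (p : PowerSeries ℂ) :
    (c • p).map σ = σ c • p.map σ := by
  ext n
  simp

/-- Conjugation of level one modular forms. -/
theorem levelOne_conj (σ : ℂ →+* ℂ) {k : ℤ} {F : ℍ → ℂ} (hF : IsMF 𝒮ℒ k F) :
    ∃ F' : ℍ → ℂ, IsMF 𝒮ℒ k F' ∧ qe F' = (qe F).map σ := by
  obtain ⟨m, c, G, hG, hGint, rfl⟩ := levelOne_intSpanned k F hF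
  refine ⟨∑ i, σ (c i) • G i, CramerAux.isMF_sum _ fun i _ => (hG i).smul _, ?_⟩
  rw [Nice.qe_sum _ fun i _ => (hG i).nice_one.smul _, Nice.qe_sum _ fun i _ => (hG i).nice_one.smul _,
    map_sum]
  refine Finset.sum_congr rfl fun i _ => ?_
  rw [(hG i).nice_one.qe_smul, (hG i).nice_one.qe_smul, map_smul_powerSeries, (hGint i).map_eq]

/-- Conjugation of level one cusp forms. -/
theorem levelOne_conj_cusp (σ : ℂ →+* ℂ) {k : ℤ} {F : ℍ → ℂ} (hF : IsCF 𝒮ℒ k F) :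
    ∃ F' : ℍ → ℂ, IsCF 𝒮ℒ k F' ∧ qe F' = (qe F).map σ := by
  obtain ⟨F', ⟨f', rfl⟩, hq⟩ := levelOne_conj σ hF.isMF
  obtain ⟨f, rfl⟩ := hF
  have h0 : (qExpansion 1 f').coeff 0 = 0 := by
    have h1 : (qExpansion 1 f).coeff 0 = 0 :=
      CuspFormClass.qExpansion_coeff_zero f one_pos one_mem_strictPeriods_SL
    have h2 : (qe f').coeff 0 = σ ((qe f).coeff 0) := by rw [hq, PowerSeries.coeff_map]
    rw [h2, h1, map_zero]
  exact ⟨f', ⟨toCuspForm f' h0, rfl⟩, hq⟩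

/-- **Conjugation theorem.** -/
theorem conj_cuspForm (N : ℕ) [NeZero N] {l : ℤ} (h : ModularForm (G0 N) l) (hBD : BD (qe h))
    (hstab : ∀ γ : SL(2, ℤ), (⇑h ∣[l] γ = ⇑h) → γ ∈ CongruenceSubgroup.Gamma0 N)
    (k : ℤ) (f : CuspForm (G0 N) k) (σ : ℂ →+* ℂ) :
    ∃ g : CuspForm (G0 N) k, qe g = (qe f).map σ := by
  have hfN : Nice (⇑f) := (IsCF.isMF ⟨f, rfl⟩ : IsMF (G0 N) k f).nice
  have hhMF : IsMF (G0 N) l h := ⟨h, rfl⟩
  have hhN : Nice (⇑h) := hhMF.nice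
  obtain ⟨n₁, w, D, x, hD, hD0, hx, hDf⟩ := cramer N l h hstab k (ModularFormClass.modularForm f)
  obtain ⟨n, c, hc, hint⟩ := integrality N k f
  replace hDf : D * ⇑f = ∑ j : Fin n₁, x j * (⇑h) ^ (j : ℕ) := hDf
  -- conjugates
  obtain ⟨D', hD', hqD'⟩ := levelOne_conj σ hD
  choose x' hx' hqx' using fun j => levelOne_conj σ (hx j)
  choose c' hc' hqc' using fun i => levelOne_conj_cusp σ (hc i)
  set φ : PowerSeries ℂ := (qe f).map σ with hφ
  set U : ℍ → ℂ := ∑ j : Fin n₁, x' j * (⇑h) ^ (j : ℕ) with hU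
  have hpowMF : ∀ j : ℕ, IsMF (G0 N) (l * j) ((⇑h) ^ j) := fun j =>
    ⟨(h.pow j).mcast (by ring), by simp⟩
  have hUMF : IsMF (G0 N) (w + k) U := by
    refine CramerAux.isMF_sum _ fun j _ => ?_
    exact CramerAux.isMF_cast (by ring) (CramerAux.isMF_mul ((hx' j).of_levelOne N) (hpowMF j))
  have hD'MF : IsMF (G0 N) w D' := hD'.of_levelOne N
  have hUN : Nice U := hUMF.nice
  have hD'N : Nice D' := hD'MF.nice
  have hDN : Nice D := hD.nice_one
  -- `qe D' * φ = qe U`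
  have hkey : qe D' * φ = qe U := by
    have h1 : qe D * qe f = ∑ j : Fin n₁, qe (x j) * qe h ^ (j : ℕ) := by
      rw [← hDN.qe_mul hfN, hDf, Nice.qe_sum _ fun j _ => (hx j).nice_one.mul (hhN.pow _)]
      refine Finset.sum_congr rfl fun j _ => ?_
      rw [(hx j).nice_one.qe_mul (hhN.pow _), hhN.qe_pow]
    have h2 := congrArg (PowerSeries.map σ) h1
    rw [map_mul, map_sum] at h2
    rw [hqD', hφ, h2, hU, Nice.qe_sum _ fun j _ => (hx' j).nice_one.mul (hhN.pow _)]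
    refine Finset.sum_congr rfl fun j _ => ?_
    rw [(hx' j).nice_one.qe_mul (hhN.pow _), hhN.qe_pow, map_mul, map_pow, hBD.map_eq, hqx']
  have hqD'0 : qe D' ≠ 0 := by
    rw [hqD']
    intro h0
    have h1 : qe D = 0 := by
      apply PowerSeries.map_injective σ σ.injective
      rw [h0, map_zero]
    exact hD0 (hDN.qe_eq_zero_iff.mp h1)
  have hD'0 : D' ≠ 0 := by
    intro h0
    apply hqD'0
    rw [h0]
    exact qExpansion_zero 1
  -- integrality of `φ`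
  have hcN : ∀ i, Nice (c i) := fun i => (hc i).isMF.nice_one
  have hc'N : ∀ i, Nice (c' i) := fun i => (hc' i).isMF.nice_one
  have hφint : φ ^ n + ∑ i : Fin n, qe (c' i) * φ ^ (n - 1 - (i : ℕ)) = 0 := by
    have h1 : qe f ^ n + ∑ i : Fin n, qe (c i) * qe f ^ (n - 1 - (i : ℕ)) = 0 := by
      have h2 := congrArg qe hint
      rw [(hfN.pow n).qe_add (Nice.sum _ fun i _ => (hcN i).mul (hfN.pow _)), hfN.qe_pow,
        Nice.qe_sum _ fun i _ => (hcN i).mul (hfN.pow _)] at h2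
      rw [show qe (0 : ℍ → ℂ) = 0 from qExpansion_zero 1] at h2
      rw [← h2]
      congr 1
      refine Finset.sum_congr rfl fun i _ => ?_
      rw [(hcN i).qe_mul (hfN.pow _), hfN.qe_pow]
    have h3 := congrArg (PowerSeries.map σ) h1
    rw [map_add, map_sum, map_pow, map_zero] at h3
    rw [← h3]
    congr 1
    refine Finset.sum_congr rfl fun i _ => ?_
    rw [map_mul, map_pow, hqc']
  -- the homogeneous equation for `U`, `D'`
  have heq : U ^ n + ∑ i : Fin n, c' i * U ^ (n - 1 - (i : ℕ)) * D' ^ ((i : ℕ) + 1) = 0 := by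
    have hN : Nice (U ^ n + ∑ i : Fin n, c' i * U ^ (n - 1 - (i : ℕ)) * D' ^ ((i : ℕ) + 1)) :=
      (hUN.pow n).add (Nice.sum _ fun i _ => ((hc'N i).mul (hUN.pow _)).mul (hD'N.pow _))
    rw [← hN.qe_eq_zero_iff, (hUN.pow n).qe_add
      (Nice.sum _ fun i _ => ((hc'N i).mul (hUN.pow _)).mul (hD'N.pow _)), hUN.qe_pow,
      Nice.qe_sum _ fun i _ => ((hc'N i).mul (hUN.pow _)).mul (hD'N.pow _)]
    have h1 : qe U ^ n + ∑ i : Fin n, qe (c' i * U ^ (n - 1 - (i : ℕ)) * D' ^ ((i : ℕ) + 1)) =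
        qe D' ^ n * (φ ^ n + ∑ i : Fin n, qe (c' i) * φ ^ (n - 1 - (i : ℕ))) := by
      rw [mul_add, Finset.mul_sum, ← hkey, mul_pow]
      congr 1
      refine Finset.sum_congr rfl fun i _ => ?_
      rw [((hc'N i).mul (hUN.pow _)).qe_mul (hD'N.pow _), (hc'N i).qe_mul (hUN.pow _), hUN.qe_pow,
        hD'N.qe_pow, ← hkey, mul_pow]
      have hi : qe D' ^ n = qe D' ^ (n - 1 - (i : ℕ)) * qe D' ^ ((i : ℕ) + 1) := by
        rw [← pow_add]; congr 1; have := i.2; omega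
      rw [hi]; ring
    rw [h1, hφint, mul_zero]
  obtain ⟨g, hg⟩ := division N k w n U D' hUMF hD'MF hD'0 c' hc' heq
  refine ⟨g, ?_⟩
  have hgN : Nice (⇑g) := (IsCF.isMF ⟨g, rfl⟩ : IsMF (G0 N) k g).nice
  have h1 : qe D' * qe g = qe D' * φ := by
    rw [← hD'N.qe_mul hgN, hg, hkey]
  exact mul_left_cancel₀ hqD'0 h1

end Fermat.Agent.S23
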