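import Mathlib
import Fermat.Prelude.Def_CuspForm_IntegralStructure

/-!
# S23: common definitions

`S_k(Γ₀(N))` is spanned by forms with integral `q`-expansion.  This file only contains the
vocabulary shared by the files of the proof.
-/

set_option autoImplicit false

namespace Fermat.Agent.S23

open UpperHalfPlane ModularForm
open scoped MatrixGroups Manifold

/-- `Γ₀(N)` as a subgroup of `GL₂(ℝ)` (this is what the coercion in `CuspForm (Gamma0 N) k`
unfolds to). -/
abbrev G0 (N : ℕ) : Subgroup (GL (Fin 2) ℝ) :=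
  Subgroup.map (Matrix.SpecialLinearGroup.mapGL ℝ) (CongruenceSubgroup.Gamma0 N)

/-- `F` is (the underlying function of) a modular form of weight `k` for `Γ`. -/
def IsMF (Γ : Subgroup (GL (Fin 2) ℝ)) (k : ℤ) (F : ℍ → ℂ) : Prop :=
  ∃ f : ModularForm Γ k, ⇑f = F

/-- `F` is (the underlying function of) a cusp form of weight `k` for `Γ`. -/
def IsCF (Γ : Subgroup (GL (Fin 2) ℝ)) (k : ℤ) (F : ℍ → ℂ) : Prop :=
  ∃ f : CuspForm Γ k, ⇑f = F

/-- The `q`-expansion (in `q = exp(2πiτ)`). -/
noncomputable abbrev qe (F : ℍ → ℂ) : PowerSeries ℂ := qExpansion 1 F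

/-- A power series with integer coefficients. -/
def IsInt (p : PowerSeries ℂ) : Prop := ∀ n : ℕ, ∃ z : ℤ, p.coeff n = (z : ℂ)

/-- A power series with rational coefficients of bounded denominator. -/
def BD (p : PowerSeries ℂ) : Prop :=
  ∃ M : ℤ, M ≠ 0 ∧ ∀ n : ℕ, ∃ z : ℤ, (M : ℂ) * p.coeff n = (z : ℂ)

end Fermat.Agent.S23
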