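import Mathlib

set_option autoImplicit false

namespace Fermat.Agent.S23

open Cardinal Polynomial

/-- Two algebraically closed fields of the same uncountable cardinality which are both faithful
algebras over a countable domain `R` are isomorphic compatibly with the structure maps. -/
theorem exists_ringEquiv_of_algebra {R K L : Type} [CommRing R] [IsDomain R] [Field K] [Field L]
    [Algebra R K] [Algebra R L] [FaithfulSMul R K] [FaithfulSMul R L]
    [IsAlgClosed K] [IsAlgClosed L]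
    (hR : #R ≤ ℵ₀) (hK : ℵ₀ < #K) (hKL : #K = #L) :
    ∃ σ : K ≃+* L, ∀ r : R, σ (algebraMap R K r) = algebraMap R L r := by
  obtain ⟨s, hs⟩ := exists_isTranscendenceBasis R K
  obtain ⟨t, ht⟩ := exists_isTranscendenceBasis R L
  have h1 : #K = #s :=
    IsAlgClosed.cardinal_eq_cardinal_transcendence_basis_of_aleph0_lt' _ hs hR hK
  have h2 : #L = #t :=
    IsAlgClosed.cardinal_eq_cardinal_transcendence_basis_of_aleph0_lt' _ ht hR (hKL ▸ hK)
  have h3 : #s = #t := by rw [← h1, ← h2, hKL]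
  obtain ⟨e⟩ := Cardinal.eq.1 h3
  let _ := IsAlgClosed.isAlgClosure_of_transcendence_basis _ hs
  let _ := IsAlgClosed.isAlgClosure_of_transcendence_basis _ ht
  let e' : Algebra.adjoin R (Set.range ((↑) : s → K)) ≃ₐ[R]
      Algebra.adjoin R (Set.range ((↑) : t → L)) :=
    hs.1.aevalEquiv.symm.trans ((MvPolynomial.renameEquiv R e).trans ht.1.aevalEquiv)
  refine ⟨IsAlgClosure.equivOfEquiv K L e'.toRingEquiv, fun r => ?_⟩
  have h := IsAlgClosure.equivOfEquiv_algebraMap K L e'.toRingEquiv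
    (algebraMap R (Algebra.adjoin R (Set.range ((↑) : s → K))) r)
  have h4 : e'.toRingEquiv (algebraMap R (Algebra.adjoin R (Set.range ((↑) : s → K))) r)
      = algebraMap R (Algebra.adjoin R (Set.range ((↑) : t → L))) r := e'.commutes r
  rw [h4] at h
  exact h

/-- Any two embeddings of a countable domain into `ℂ` differ by an automorphism of `ℂ`. -/
theorem exists_ringEquiv_complex {R : Type} [CommRing R] [IsDomain R] (hR : #R ≤ ℵ₀)
    (φ ψ : R →+* ℂ) (hφ : Function.Injective φ) (hψ : Function.Injective ψ) :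
    ∃ σ : ℂ ≃+* ℂ, ∀ r : R, σ (φ r) = ψ r := by
  have hK : ℵ₀ < #ℂ := by rw [Cardinal.mk_complex]; exact Cardinal.aleph0_lt_continuum
  exact @exists_ringEquiv_of_algebra R ℂ ℂ _ _ _ _ φ.toAlgebra ψ.toAlgebra
    ((@faithfulSMul_iff_algebraMap_injective R ℂ _ _ φ.toAlgebra).mpr hφ)
    ((@faithfulSMul_iff_algebraMap_injective R ℂ _ _ ψ.toAlgebra).mpr hψ) _ _ hR hK rfl

theorem mk_polynomial_rat_le : #(ℚ[X]) ≤ ℵ₀ := by
  refine (Polynomial.cardinalMk_le_max).trans ?_
  simp

/-- The fixed field of the automorphism group of `ℂ` is `ℚ`. -/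
theorem exists_ringEquiv_apply_ne (x : ℂ) (hx : x ∉ Set.range ((↑) : ℚ → ℂ)) :
    ∃ σ : ℂ ≃+* ℂ, σ x ≠ x := by
  by_cases halg : IsAlgebraic ℚ x
  · -- algebraic case: move `x` to another root of its minimal polynomial
    have hint : IsIntegral ℚ x := halg.isIntegral
    have hdeg : 2 ≤ (minpoly ℚ x).natDegree := by
      rw [minpoly.two_le_natDegree_iff hint]
      rintro ⟨r, hr⟩
      exact hx ⟨r, by simpa using hr⟩
    have hirr : Irreducible (minpoly ℚ x) := minpoly.irreducible hint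
    have hcard : Fintype.card ((minpoly ℚ x).rootSet ℂ) = (minpoly ℚ x).natDegree :=
      Polynomial.card_rootSet_eq_natDegree hirr.separable (IsAlgClosed.splits _)
    have hxmem : x ∈ (minpoly ℚ x).rootSet ℂ := by
      rw [Polynomial.mem_rootSet]
      exact ⟨minpoly.ne_zero hint, minpoly.aeval ℚ x⟩
    obtain ⟨⟨y, hy⟩, hyx⟩ := Fintype.exists_ne_of_one_lt_card
      (by rw [hcard]; omega) (⟨x, hxmem⟩ : (minpoly ℚ x).rootSet ℂ)
    have hyx' : y ≠ x := fun h => hyx (Subtype.ext h)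
    have : Fact (Irreducible (minpoly ℚ x)) := ⟨hirr⟩
    have hx0 : eval₂ (algebraMap ℚ ℂ) x (minpoly ℚ x) = 0 := minpoly.aeval ℚ x
    have hy0 : eval₂ (algebraMap ℚ ℂ) y (minpoly ℚ x) = 0 := ((Polynomial.mem_rootSet).1 hy).2
    have hR : #(AdjoinRoot (minpoly ℚ x)) ≤ ℵ₀ :=
      (Cardinal.mk_le_of_surjective (AdjoinRoot.mk_surjective)).trans mk_polynomial_rat_le
    obtain ⟨σ, hσ⟩ := exists_ringEquiv_complex hR
      (AdjoinRoot.lift (algebraMap ℚ ℂ) x hx0) (AdjoinRoot.lift (algebraMap ℚ ℂ) y hy0)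
      (RingHom.injective _) (RingHom.injective _)
    refine ⟨σ, ?_⟩
    have := hσ (AdjoinRoot.root _)
    rw [AdjoinRoot.lift_root, AdjoinRoot.lift_root] at this
    rw [this]
    exact hyx'
  · -- transcendental case: move `x` to `x ^ 2`
    have htr : Transcendental ℚ x := halg
    have htr2 : Transcendental ℚ (x ^ 2) := htr.pow (by norm_num)
    obtain ⟨σ, hσ⟩ := exists_ringEquiv_complex mk_polynomial_rat_le
      (aeval (R := ℚ) x).toRingHom (aeval (R := ℚ) (x ^ 2)).toRingHom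
      (transcendental_iff_injective.1 htr) (transcendental_iff_injective.1 htr2)
    refine ⟨σ, ?_⟩
    have := hσ X
    simp only [AlgHom.toRingHom_eq_coe, RingHom.coe_coe, aeval_X] at this
    rw [this]
    intro h
    apply hx
    have h' : x * (x - 1) = 0 := by linear_combination h
    rcases mul_eq_zero.1 h' with h0 | h1
    · exact ⟨0, by simp [h0]⟩
    · exact ⟨1, by simp [sub_eq_zero.1 h1]⟩

/-- Galois descent for `ℂ / ℚ`: a finite dimensional subspace of `ι → ℂ` which is stable under all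
(coordinatewise) automorphisms of `ℂ` is spanned by its vectors with rational coordinates. -/
theorem span_rational_eq {ι : Type*} (V : Submodule ℂ (ι → ℂ)) [FiniteDimensional ℂ V]
    (hV : ∀ σ : ℂ ≃+* ℂ, ∀ v ∈ V, (fun i => σ (v i)) ∈ V) :
    Submodule.span ℂ {v | v ∈ V ∧ ∀ i, ∃ r : ℚ, v i = (r : ℂ)} = V := by
  classical
  apply le_antisymm
  · rw [Submodule.span_le]
    exact fun v hv => hv.1
  -- coordinate functionals on `V`
  let ev : ι → Module.Dual ℂ V := fun i => (LinearMap.proj i).comp V.subtype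
  have hev : ∀ (i : ι) (v : V), ev i v = (v : ι → ℂ) i := fun i v => rfl
  have hspan : ⊤ ≤ Submodule.span ℂ (Set.range ev) := by
    have h0 : (Submodule.span ℂ (Set.range ev)).dualCoannihilator = ⊥ := by
      rw [eq_bot_iff]
      intro v hv
      rw [Submodule.mem_dualCoannihilator] at hv
      rw [Submodule.mem_bot]
      apply Subtype.ext
      funext i
      exact hv (ev i) (Submodule.subset_span ⟨i, rfl⟩)
    have h1 := Subspace.dualCoannihilator_dualAnnihilator_eq
      (W := Submodule.span ℂ (Set.range ev))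
    rw [h0, Submodule.dualAnnihilator_bot] at h1
    exact h1.le
  let b := Module.Basis.ofSpan hspan
  have : Fintype _ := FiniteDimensional.fintypeBasisIndex b
  have hb : ∀ j, ∃ i, ev i = b j := fun j => Module.Basis.ofSpan_subset hspan ⟨j, rfl⟩
  choose idx hidx using hb
  -- elements of `V` are determined by the chosen coordinates
  have hdet : ∀ v w : V, (∀ j, b j v = b j w) → v = w := by
    intro v w h
    rw [← sub_eq_zero, ← Module.forall_dual_apply_eq_zero_iff ℂ]
    intro φ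
    rw [← b.sum_repr φ]
    simp only [LinearMap.sum_apply, LinearMap.smul_apply, map_sub, h, sub_self, smul_zero,
      Finset.sum_const_zero]
  -- the dual basis of `V`
  let u : _ → V := fun j => (Module.evalEquiv ℂ V).symm (b.coord j)
  have hu : ∀ j j', b j' (u j) = if j' = j then 1 else 0 := by
    intro j j'
    rw [Module.apply_evalEquiv_symm_apply, Module.Basis.coord_apply, Module.Basis.repr_self,
      Finsupp.single_apply]
  have hfix : ∀ (σ : ℂ ≃+* ℂ) j i, σ ((u j : ι → ℂ) i) = (u j : ι → ℂ) i := by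
    intro σ j i
    have hmem := hV σ (u j) (u j).2
    have : (⟨_, hmem⟩ : V) = u j := by
      apply hdet
      intro j'
      rw [← hidx j', hev, hev]
      have h2 := hu j j'
      rw [← hidx j', hev] at h2
      show σ ((u j : ι → ℂ) (idx j')) = _
      rw [h2]
      split_ifs <;> simp
    exact congrFun (congrArg Subtype.val this) i
  have hrat : ∀ j i, ∃ r : ℚ, (u j : ι → ℂ) i = (r : ℂ) := by
    intro j i
    by_contra hcon
    obtain ⟨σ, hσ⟩ := exists_ringEquiv_apply_ne ((u j : ι → ℂ) i)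
      (fun ⟨r, hr⟩ => hcon ⟨r, hr.symm⟩)
    exact hσ (hfix σ j i)
  intro v hv
  have hsum : (⟨v, hv⟩ : V) = ∑ j, (b j ⟨v, hv⟩) • u j := by
    apply hdet
    intro j'
    simp only [map_sum, map_smul, hu, smul_eq_mul, mul_ite, mul_one, mul_zero,
      Finset.sum_ite_eq, Finset.mem_univ, if_true]
  have hsum' : v = ∑ j, (b j ⟨v, hv⟩) • (u j : ι → ℂ) := by
    have := congrArg Subtype.val hsum
    simpa using this
  rw [hsum']
  exact Submodule.sum_mem _ fun j _ => Submodule.smul_mem _ _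
    (Submodule.subset_span ⟨(u j).2, hrat j⟩)

/-- (F) fixed field, in the shape of the S23 skeleton. -/
theorem exists_rat_of_fixed (x : ℂ) (hx : ∀ σ : ℂ →+* ℂ, σ x = x) : ∃ r : ℚ, (r : ℂ) = x := by
  by_contra hcon
  obtain ⟨σ, hσ⟩ := exists_ringEquiv_apply_ne x (fun ⟨r, hr⟩ => hcon ⟨r, hr⟩)
  exact hσ (hx (σ : ℂ →+* ℂ))

/-- (G) descent, in the shape of the S23 skeleton (only automorphisms are needed). -/
theorem descent' {V : Type*} [AddCommGroup V] [Module ℂ V] [FiniteDimensional ℂ V]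
    (ι : V →ₗ[ℂ] (ℕ → ℂ)) (hι : Function.Injective ι)
    (hσ : ∀ (σ : ℂ ≃+* ℂ) (v : V), ∃ v' : V, ∀ n, ι v' n = σ (ι v n)) :
    Submodule.span ℂ {v : V | ∀ n, ∃ r : ℚ, ι v n = (r : ℂ)} = ⊤ := by
  have hfd : FiniteDimensional ℂ (LinearMap.range ι) := inferInstance
  have h := span_rational_eq (LinearMap.range ι) (by
    rintro σ _ ⟨v, rfl⟩
    obtain ⟨v', hv'⟩ := hσ σ v
    exact ⟨v', funext hv'⟩)
  rw [eq_top_iff]
  intro v _
  have hv : ι v ∈ Submodule.span ℂ {w | w ∈ LinearMap.range ι ∧ ∀ i, ∃ r : ℚ, w i = (r : ℂ)} := by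
    rw [h]; exact ⟨v, rfl⟩
  have hsub : {w | w ∈ LinearMap.range ι ∧ ∀ i, ∃ r : ℚ, w i = (r : ℂ)} ⊆
      ι '' {v : V | ∀ n, ∃ r : ℚ, ι v n = (r : ℂ)} := by
    rintro _ ⟨⟨u, rfl⟩, hu⟩
    exact ⟨u, hu, rfl⟩
  have hv' := Submodule.span_mono hsub hv
  rw [Submodule.span_image] at hv'
  obtain ⟨u, hu, huv⟩ := hv'
  rwa [← hι huv]

/-- (G) descent, exactly as in the S23 skeleton. -/
theorem descent {V : Type*} [AddCommGroup V] [Module ℂ V] [FiniteDimensional ℂ V]
    (ι : V →ₗ[ℂ] (ℕ → ℂ)) (hι : Function.Injective ι)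
    (hσ : ∀ (σ : ℂ →+* ℂ) (v : V), ∃ v' : V, ∀ n, ι v' n = σ (ι v n)) :
    Submodule.span ℂ {v : V | ∀ n, ∃ r : ℚ, ι v n = (r : ℂ)} = ⊤ :=
  descent' ι hι fun σ v => hσ (σ : ℂ →+* ℂ) v

end Fermat.Agent.S23
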