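import Mathlib

/-!
# Descent for finite dimensional spaces of power series (helper file for S23)

* `exists_ringEquiv_ne` : every non-rational complex number is moved by some ring
  automorphism of `ℂ`.
* `span_rational_of_stable` : a finite dimensional space of complex power series which is stable
  under all coefficientwise ring automorphisms of `ℂ` is spanned by its rational elements.
-/

set_option autoImplicit false

namespace Fermat.Agent.S23

open Polynomial

/-- A transcendental complex number is moved by some automorphism of `ℂ`. -/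
theorem exists_ringEquiv_ne_of_transcendental {x : ℂ} (hx : Transcendental ℚ x) :
    ∃ σ : ℂ ≃+* ℂ, σ x ≠ x := by
  classical
  have hind : AlgebraicIndepOn ℚ id ({x} : Set ℂ) := by
    have : AlgebraicIndependent ℚ (fun i : ({x} : Set ℂ) => id (i : ℂ)) :=
      (algebraicIndependent_singleton_iff (⟨x, rfl⟩ : ({x} : Set ℂ))).2 hx
    exact this
  obtain ⟨t, hxt, ht⟩ := exists_isTranscendenceBasis_superset hind
  have hxt' : x ∈ t := hxt rfl
  let v : t → ℂ := Subtype.val
  let A := Algebra.adjoin ℚ (Set.range v)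
  have : IsAlgClosure A ℂ := IsAlgClosed.isAlgClosure_of_transcendence_basis v ht
  let c : t → ℚ := fun i => if (i : ℂ) = x then 1 else 0
  let τ : MvPolynomial t ℚ ≃ₐ[ℚ] MvPolynomial t ℚ :=
    AlgEquiv.ofAlgHom
      (MvPolynomial.aeval fun i => MvPolynomial.X i + MvPolynomial.C (c i))
      (MvPolynomial.aeval fun i => MvPolynomial.X i - MvPolynomial.C (c i))
      (by ext i; simp) (by ext i; simp)
  let e : A ≃+* A :=
    (ht.1.aevalEquiv.symm.toRingEquiv.trans τ.toRingEquiv).trans ht.1.aevalEquiv.toRingEquiv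
  let σ : ℂ ≃+* ℂ := IsAlgClosure.equivOfEquiv ℂ ℂ e
  refine ⟨σ, ?_⟩
  let xA : A := ht.1.aevalEquiv (MvPolynomial.X ⟨x, hxt'⟩)
  have hxA : algebraMap A ℂ xA = x := by
    simp [xA, v]
  have h1 : σ x = algebraMap A ℂ (e xA) := by
    rw [← hxA]
    exact IsAlgClosure.equivOfEquiv_algebraMap ℂ ℂ e xA
  have h2 : algebraMap A ℂ (e xA) = x + 1 := by
    simp [e, xA, τ, c, v]
  rw [h1, h2]
  simp

/-- An algebraic non-rational complex number is moved by some automorphism of `ℂ`. -/
theorem exists_ringEquiv_ne_of_isAlgebraic {x : ℂ} (hx : IsAlgebraic ℚ x)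
    (hxq : ∀ r : ℚ, (r : ℂ) ≠ x) : ∃ σ : ℂ ≃+* ℂ, σ x ≠ x := by
  classical
  let R := algebraicClosure ℚ ℂ
  have hcl : IsAlgClosure ℚ R := algebraicClosure.isAlgClosure ℚ ℂ
  have hnorm : Normal ℚ R := IsAlgClosure.normal ℚ R
  have hRcl : IsAlgClosed R := hcl.isAlgClosed
  let x' : R := ⟨x, mem_algebraicClosure_iff.2 hx⟩
  have hx'alg : IsAlgebraic ℚ x' := hcl.isAlgebraic.isAlgebraic x'
  have hx'int : IsIntegral ℚ x' := hx'alg.isIntegral
  -- another root of the minimal polynomial
  have hdeg : (minpoly ℚ x').natDegree ≠ 1 := by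
    intro h
    obtain ⟨r, hr⟩ := minpoly.natDegree_eq_one_iff.1 h
    apply hxq r
    have := congrArg (Subtype.val) hr
    simpa [x'] using this
  have hdeg0 : 0 < (minpoly ℚ x').natDegree := minpoly.natDegree_pos hx'int
  have hsep : (minpoly ℚ x').Separable := (minpoly.irreducible hx'int).separable
  have hcard : Fintype.card ((minpoly ℚ x').rootSet R) = (minpoly ℚ x').natDegree :=
    card_rootSet_eq_natDegree hsep (IsAlgClosed.splits _)
  have hx'root : x' ∈ (minpoly ℚ x').rootSet R := by
    rw [mem_rootSet]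
    exact ⟨minpoly.ne_zero hx'int, minpoly.aeval ℚ x'⟩
  obtain ⟨⟨y', hy'⟩, hne⟩ : ∃ y : (minpoly ℚ x').rootSet R, y ≠ ⟨x', hx'root⟩ :=
    Fintype.exists_ne_of_one_lt_card (by omega) _
  have hy'x' : y' ≠ x' := fun h => hne (Subtype.ext h)
  obtain ⟨τ, hτ⟩ := minpoly.exists_algEquiv_of_root (K := ℚ) (L := R) (x := y') (y := x') hx'alg
    ((mem_rootSet.1 hy').2)
  have hτx : τ x' ≠ x' := by
    intro h
    exact hy'x' (τ.injective (hτ.trans h.symm))
  -- extend `τ` to `ℂ`
  obtain ⟨ι, v, hv⟩ := exists_isTranscendenceBasis' R ℂ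
  let A := Algebra.adjoin R (Set.range v)
  have : IsAlgClosure A ℂ := IsAlgClosed.isAlgClosure_of_transcendence_basis v hv
  let e : A ≃+* A :=
    (hv.1.aevalEquiv.symm.toRingEquiv.trans (MvPolynomial.mapEquiv ι τ.toRingEquiv)).trans
      hv.1.aevalEquiv.toRingEquiv
  let σ : ℂ ≃+* ℂ := IsAlgClosure.equivOfEquiv ℂ ℂ e
  refine ⟨σ, ?_⟩
  let xA : A := hv.1.aevalEquiv (MvPolynomial.C x')
  have hxA : algebraMap A ℂ xA = x := by
    simp [xA, x']
  have h1 : σ x = algebraMap A ℂ (e xA) := by
    rw [← hxA]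
    exact IsAlgClosure.equivOfEquiv_algebraMap ℂ ℂ e xA
  have h2 : algebraMap A ℂ (e xA) = ((τ x' : R) : ℂ) := by
    simp [e, xA]
  rw [h1, h2]
  intro h
  exact hτx (Subtype.ext h)

/-- Every non-rational complex number is moved by some ring automorphism of `ℂ`. -/
theorem exists_ringEquiv_ne {x : ℂ} (hx : ∀ r : ℚ, (r : ℂ) ≠ x) : ∃ σ : ℂ ≃+* ℂ, σ x ≠ x := by
  by_cases h : IsAlgebraic ℚ x
  · exact exists_ringEquiv_ne_of_isAlgebraic h hx
  · exact exists_ringEquiv_ne_of_transcendental h

/-- A complex number fixed by all ring automorphisms of `ℂ` is rational. -/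
theorem exists_rat_of_fixed {x : ℂ} (hx : ∀ σ : ℂ ≃+* ℂ, σ x = x) : ∃ r : ℚ, (r : ℂ) = x := by
  by_contra h
  push Not at h
  obtain ⟨σ, hσ⟩ := exists_ringEquiv_ne h
  exact hσ (hx σ)

/-- A power series fixed by all coefficientwise ring automorphisms of `ℂ` is rational. -/
theorem exists_ratPowerSeries_of_fixed {f : PowerSeries ℂ}
    (hf : ∀ σ : ℂ ≃+* ℂ, PowerSeries.map (σ : ℂ →+* ℂ) f = f) :
    ∃ g : PowerSeries ℚ, f = PowerSeries.map (algebraMap ℚ ℂ) g := by
  have h : ∀ n : ℕ, ∃ r : ℚ, (r : ℂ) = PowerSeries.coeff n f := by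
    intro n
    apply exists_rat_of_fixed
    intro σ
    have := congrArg (PowerSeries.coeff n) (hf σ)
    simpa using this
  choose r hr using h
  refine ⟨PowerSeries.mk r, ?_⟩
  ext n
  simp [hr]

/-- **Descent.** A finite dimensional space of complex power series which is stable under all
coefficientwise ring automorphisms of `ℂ` is spanned by its rational elements. -/
theorem span_rational_of_stable (V : Submodule ℂ (PowerSeries ℂ)) [FiniteDimensional ℂ V]
    (hV : ∀ σ : ℂ ≃+* ℂ, ∀ f ∈ V, PowerSeries.map (σ : ℂ →+* ℂ) f ∈ V) :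
    V = Submodule.span ℂ
      {f | f ∈ V ∧ ∃ g : PowerSeries ℚ, f = PowerSeries.map (algebraMap ℚ ℂ) g} := by
  classical
  -- coefficient functionals on `V`
  let c : ℕ → Module.Dual ℂ V := fun k => (PowerSeries.coeff (R := ℂ) k).comp V.subtype
  have hc : ∀ (k : ℕ) (f : V), c k f = PowerSeries.coeff k (f : PowerSeries ℂ) := fun _ _ => rfl
  have hspan : Submodule.span ℂ (Set.range c) = ⊤ := by
    have h0 : (Submodule.span ℂ (Set.range c)).dualCoannihilator = ⊥ := by
      rw [eq_bot_iff]
      intro f hf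
      rw [Submodule.mem_dualCoannihilator] at hf
      rw [Submodule.mem_bot]
      apply Subtype.ext
      ext k
      have := hf (c k) (Submodule.subset_span ⟨k, rfl⟩)
      simpa [hc] using this
    have h1 := Subspace.dualCoannihilator_dualAnnihilator_eq
      (W := Submodule.span ℂ (Set.range c))
    rw [h0, Submodule.dualAnnihilator_bot] at h1
    exact h1.symm
  obtain ⟨ι, b, hb⟩ : ∃ (ι : Type) (b : Module.Basis ι ℂ (Module.Dual ℂ V)),
      ∀ i, ∃ k, c k = b i :=
    ⟨_, Module.Basis.ofSpan hspan.ge, fun i => Module.Basis.ofSpan_subset hspan.ge ⟨i, rfl⟩⟩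
  have hfin : Finite ι := Module.Finite.finite_basis b
  -- the dual basis of `V`
  let B : Module.Basis ι ℂ V := b.dualBasis.map (Module.evalEquiv ℂ V).symm
  have hB : ∀ i j, b j (B i) = if j = i then 1 else 0 := by
    intro i j
    have h1 : Module.evalEquiv ℂ V (B i) = b.dualBasis i := by
      simp [B]
    have h2 : Module.evalEquiv ℂ V (B i) (b j) = b j (B i) := by
      simp
    rw [← h2, h1, Module.Basis.dualBasis_apply_self]
  -- elements of `V` are separated by the `b j`
  have hsep : ∀ f g : V, (∀ j, b j f = b j g) → f = g := by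
    intro f g h
    have h3 : ∀ φ : Module.Dual ℂ V, φ (f - g) = 0 := by
      intro φ
      have hφ : φ ∈ Submodule.span ℂ (Set.range b) := by rw [b.span_eq]; trivial
      induction hφ using Submodule.span_induction with
      | mem x hx => obtain ⟨j, rfl⟩ := hx; simp [h j]
      | zero => simp
      | add x y _ _ hx hy => simp only [LinearMap.add_apply, hx, hy, add_zero]
      | smul a x _ hx => simp only [LinearMap.smul_apply, hx, smul_zero]
    exact sub_eq_zero.1 ((Module.forall_dual_apply_eq_zero_iff ℂ (f - g)).1 h3)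
  -- each `B i` is fixed by all automorphisms
  have hfix : ∀ (i : ι) (σ : ℂ ≃+* ℂ),
      PowerSeries.map (σ : ℂ →+* ℂ) (B i : PowerSeries ℂ) = (B i : PowerSeries ℂ) := by
    intro i σ
    have hmem := hV σ (B i) (B i).2
    have : (⟨_, hmem⟩ : V) = B i := by
      apply hsep
      intro j
      obtain ⟨k, hk⟩ := hb j
      rw [← hk, hc, hc]
      have h4 : PowerSeries.coeff k (B i : PowerSeries ℂ) = if j = i then 1 else 0 := by
        rw [← hc, hk, hB]
      simp only [PowerSeries.coeff_map, h4]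
      split_ifs <;> simp
    exact congrArg Subtype.val this
  apply le_antisymm
  · intro f hf
    have hf' : (⟨f, hf⟩ : V) ∈ Submodule.span ℂ (Set.range B) := by rw [B.span_eq]; trivial
    have := Submodule.mem_map_of_mem (f := V.subtype) hf'
    rw [Submodule.map_span] at this
    refine Submodule.span_mono ?_ this
    rintro _ ⟨_, ⟨i, rfl⟩, rfl⟩
    exact ⟨(B i).2, exists_ratPowerSeries_of_fixed (hfix i)⟩
  · rw [Submodule.span_le]
    exact fun f hf => hf.1

end Fermat.Agent.S23
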