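import Fermat.Agent.S23.Conj
import Fermat.Agent.S23.Descent
import Fermat.Agent.S23.BoundedDenom
import Fermat.Prelude.Thm_ModularForm_sturm_bound_Gamma0

/-!
# S23: the integral structure on `S_k(Γ₀(N))`, given a primitive element
-/

set_option autoImplicit false

namespace Fermat.Agent.S23

open UpperHalfPlane ModularForm Filter Topology
open scoped MatrixGroups Manifold

theorem CuspForm.nice {N : ℕ} {k : ℤ} (f : CuspForm (G0 N) k) : Nice (⇑f) :=
  (IsCF.isMF ⟨f, rfl⟩ : IsMF (G0 N) k f).nice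

/-- The `q`-expansion coefficients, as a linear map. -/
noncomputable def coeffMap (N : ℕ) (k : ℤ) : CuspForm (G0 N) k →ₗ[ℂ] (ℕ → ℂ) where
  toFun f n := (qe f).coeff n
  map_add' f g := by
    funext n
    have : qe (⇑(f + g)) = qe f + qe g := (CuspForm.nice f).qe_add (CuspForm.nice g)
    show (qe (⇑(f + g))).coeff n = (qe f).coeff n + (qe g).coeff n
    rw [this, map_add]
  map_smul' c f := by
    funext n
    have : qe (⇑(c • f)) = c • qe f := (CuspForm.nice f).qe_smul c
    show (qe (⇑(c • f))).coeff n = c • (qe f).coeff n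
    rw [this, PowerSeries.coeff_smul]

theorem coeffMap_apply {N : ℕ} {k : ℤ} (f : CuspForm (G0 N) k) (n : ℕ) :
    coeffMap N k f n = (qe f).coeff n := rfl

theorem coeffMap_injective (N : ℕ) (k : ℤ) : Function.Injective (coeffMap N k) := by
  refine (injective_iff_map_eq_zero _).mpr fun f hf => ?_
  have h1 : qe f = 0 := by
    ext n
    simpa [coeffMap_apply] using congrFun hf n
  have h2 := (CuspForm.nice f).qe_eq_zero_iff.mp h1
  exact DFunLike.coe_injective h2

/-- Finite dimensionality, from the Sturm bound. -/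
theorem finiteDimensional_cuspForm (N : ℕ) [NeZero N] (k : ℤ) :
    FiniteDimensional ℂ (CuspForm (G0 N) k) := by
  set B : ℕ := (k * (CongruenceSubgroup.Gamma0 N).index).toNat / 12 with hB
  let T : CuspForm (G0 N) k →ₗ[ℂ] (Fin (B + 1) → ℂ) :=
    (LinearMap.funLeft ℂ ℂ (fun i : Fin (B + 1) => (i : ℕ))).comp (coeffMap N k)
  have hT : Function.Injective T := by
    refine (injective_iff_map_eq_zero _).mpr fun f hf => ?_
    have hmf : (ModularFormClass.modularForm f : ModularForm (CongruenceSubgroup.Gamma0 N) k) = 0 := by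
      refine ModularForm.sturm_bound_Gamma0 N _ fun n hn => ?_
      have := congrFun hf ⟨n, Nat.lt_succ_of_le hn⟩
      simpa [T, coeffMap_apply, LinearMap.funLeft] using this
    have hcoe : (⇑f : ℍ → ℂ) = 0 := by
      have := congrArg (fun F : ModularForm (CongruenceSubgroup.Gamma0 N) k => (⇑F : ℍ → ℂ)) hmf
      simpa using this
    exact DFunLike.coe_injective hcoe
  exact FiniteDimensional.of_injective T hT

/-- `q`-expansions of level one forms lie in the `ℂ`-span of `ℤ⟦q⟧`. -/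
theorem qe_mem_BB_of_levelOne {k : ℤ} {F : ℍ → ℂ} (hF : IsMF 𝒮ℒ k F) : qe F ∈ BB := by
  obtain ⟨m, c, G, hG, hGint, rfl⟩ := levelOne_intSpanned k F hF
  rw [Nice.qe_sum _ fun i _ => (hG i).nice_one.smul _]
  refine BB.sum_mem fun i _ => ?_
  rw [(hG i).nice_one.qe_smul]
  exact BB.smul_mem (hGint i).mem_BB _

/-- **Bounded denominators.** -/
theorem BD_of_rational (N : ℕ) [NeZero N] {l : ℤ} (h : ModularForm (G0 N) l) (hBD : BD (qe h))
    (hstab : ∀ γ : SL(2, ℤ), (⇑h ∣[l] γ = ⇑h) → γ ∈ CongruenceSubgroup.Gamma0 N)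
    (k : ℤ) (f : CuspForm (G0 N) k) (hf : ∀ n, ∃ r : ℚ, (qe f).coeff n = (r : ℂ)) :
    BD (qe f) := by
  have hfN : Nice (⇑f) := CuspForm.nice f
  have hhMF : IsMF (G0 N) l h := ⟨h, rfl⟩
  have hhN : Nice (⇑h) := hhMF.nice
  obtain ⟨n₁, w, D, x, hD, hD0, hx, hDf⟩ := cramer N l h hstab k (ModularFormClass.modularForm f)
  obtain ⟨n, c, hc, hint⟩ := integrality N k f
  replace hDf : D * ⇑f = ∑ j : Fin n₁, x j * (⇑h) ^ (j : ℕ) := hDf
  choose r hr using hf
  have hg : iotaQ (PowerSeries.mk r) = qe f := by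
    ext n
    simp [hr n]
  have hDN : Nice D := hD.nice_one
  have hcN : ∀ i, Nice (c i) := fun i => (hc i).isMF.nice_one
  rw [← hg]
  refine bounded_denominators (PowerSeries.mk r) (qe D) (∑ j : Fin n₁, qe (x j) * qe h ^ (j : ℕ))
    (qe_mem_BB_of_levelOne hD) ?_ ?_ ?_ n (fun i => qe (c i))
    (fun i => qe_mem_BB_of_levelOne (hc i).isMF) ?_
  · exact BB.sum_mem fun j _ => BB.mul_mem (qe_mem_BB_of_levelOne (hx j)) (BB.pow_mem hBD.mem_BB _)
  · exact fun h0 => hD0 (hDN.qe_eq_zero_iff.mp h0)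
  · rw [hg, ← hDN.qe_mul hfN, hDf, Nice.qe_sum _ fun j _ => (hx j).nice_one.mul (hhN.pow _)]
    refine Finset.sum_congr rfl fun j _ => ?_
    rw [(hx j).nice_one.qe_mul (hhN.pow _), hhN.qe_pow]
  · rw [hg]
    have h2 := congrArg qe hint
    rw [(hfN.pow n).qe_add (Nice.sum _ fun i _ => (hcN i).mul (hfN.pow _)), hfN.qe_pow,
      Nice.qe_sum _ fun i _ => (hcN i).mul (hfN.pow _)] at h2
    rw [show qe (0 : ℍ → ℂ) = 0 from qExpansion_zero 1] at h2
    rw [← h2]
    congr 1
    refine Finset.sum_congr rfl fun i _ => ?_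
    rw [(hcN i).qe_mul (hfN.pow _), hfN.qe_pow]

/-- **The integral structure**, given a primitive element. -/
theorem hasIntegralStructure_of_primitive (N : ℕ) [NeZero N] {l : ℤ} (h : ModularForm (G0 N) l)
    (hBD : BD (qe h))
    (hstab : ∀ γ : SL(2, ℤ), (⇑h ∣[l] γ = ⇑h) → γ ∈ CongruenceSubgroup.Gamma0 N) (k : ℤ) :
    CuspForm.HasIntegralStructure N k := by
  have := finiteDimensional_cuspForm N k
  have hdesc := descent (coeffMap N k) (coeffMap_injective N k) (fun σ v => by
    obtain ⟨g, hg⟩ := conj_cuspForm N h hBD hstab k v σ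
    refine ⟨g, fun n => ?_⟩
    rw [coeffMap_apply, coeffMap_apply, hg, PowerSeries.coeff_map])
  unfold CuspForm.HasIntegralStructure
  rw [eq_top_iff, ← hdesc, Submodule.span_le]
  intro v hv
  obtain ⟨M, hM, hMv⟩ := BD_of_rational N h hBD hstab k v hv
  have hMC : (M : ℂ) ≠ 0 := by exact_mod_cast hM
  have h1 : (M : ℂ) • v ∈ CuspForm.intLattice N k := by
    refine Submodule.subset_span fun n => ?_
    obtain ⟨z, hz⟩ := hMv n
    refine ⟨z, ?_⟩
    have : qe (⇑((M : ℂ) • v)) = (M : ℂ) • qe v := (CuspForm.nice v).qe_smul _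
    show (qe (⇑((M : ℂ) • v))).coeff n = z
    rw [this, PowerSeries.coeff_smul, smul_eq_mul, hz]
  have h2 : v = (M : ℂ)⁻¹ • ((M : ℂ) • v) := by
    rw [smul_smul, inv_mul_cancel₀ hMC, one_smul]
  rw [h2]
  exact Submodule.smul_mem _ _ (Submodule.subset_span h1)

end Fermat.Agent.S23
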